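/-
S17lib / HT / Defs  (helper8) — Project G, block HT (absolute heights on `Qb`), part 1.

One fixed extension `absv p` of every place `p` of `ℚ` (`none` = the real place, `some p` = the
`p`-adic place) to `Qb = AlgebraicClosure ℚ`; basic local lemmas.
-/
import Mathlib

set_option autoImplicit false

noncomputable section

namespace Fermat.Agent.S17lib.HT

/-- the field of algebraic numbers -/
abbrev Qb : Type := AlgebraicClosure ℚ

/-- the absolute Galois group of `ℚ` -/
abbrev GQ : Type := Qb ≃ₐ[ℚ] Qb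

/-- the places of `ℚ`: `none` is the real place, `some p` the `p`-adic place -/
abbrev Plc : Type := Option Nat.Primes

instance isAlgebraicQb : Algebra.IsAlgebraic ℚ Qb := AlgebraicClosure.isAlgebraic ℚ

/-- a chosen complex embedding of `Qb` -/
def iotaC : Qb →ₐ[ℚ] ℂ := IsAlgClosed.lift

instance factPrime (p : Nat.Primes) : Fact (p : ℕ).Prime := ⟨p.2⟩

/-- a chosen `p`-adic embedding of `Qb` -/
def iotaP (p : Nat.Primes) : Qb →ₐ[ℚ] PadicAlgCl (p : ℕ) := IsAlgClosed.lift

/-- the chosen extension of the place `p` of `ℚ` to `Qb` -/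
def absv : Plc → AbsoluteValue Qb ℝ
  | none => (NormedField.toAbsoluteValue ℂ).comp (f := (iotaC : Qb →+* ℂ)) iotaC.injective
  | some p => (NormedField.toAbsoluteValue (PadicAlgCl (p : ℕ))).comp
      (f := (iotaP p : Qb →+* PadicAlgCl (p : ℕ))) (iotaP p).injective

theorem absv_none_apply (x : Qb) : absv none x = ‖iotaC x‖ := rfl

theorem absv_some_apply (p : Nat.Primes) (x : Qb) : absv (some p) x = ‖iotaP p x‖ := rfl

theorem absv_none_rat (q : ℚ) : absv none (algebraMap ℚ Qb q) = |(q : ℝ)| := by
  rw [absv_none_apply, AlgHom.commutes]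
  simp

theorem absv_some_rat (p : Nat.Primes) (q : ℚ) :
    absv (some p) (algebraMap ℚ Qb q) = (padicNorm (p : ℕ) q : ℝ) := by
  rw [absv_some_apply, AlgHom.commutes]
  have : (algebraMap ℚ (PadicAlgCl (p : ℕ)) q) = ((q : ℚ_[(p : ℕ)]) : PadicAlgCl (p : ℕ)) := by
    simp
  rw [this, PadicAlgCl.norm_extends]
  simp

theorem absv_some_isNonarchimedean (p : Nat.Primes) : IsNonarchimedean (absv (some p)) := by
  intro x y
  simp only [absv_some_apply, map_add]
  exact PadicAlgCl.isNonarchimedean (p : ℕ) _ _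

end Fermat.Agent.S17lib.HT
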