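/-
S17lib / HT / Local  (helper8) — Project G, block HT, part 2.

Local lemmas for ONE absolute value: ultrametric sums, the root bound for polynomials with
integral coefficients and unit leading coefficient, the local log-plus `lp`.
-/
import Mathlib
import Fermat.Agent.S17lib.HT.Defs

set_option autoImplicit false

noncomputable section

namespace Fermat.Agent.S17lib.HT

open Polynomial

section Nonarch

variable {K : Type*} [Field K] {v : AbsoluteValue K ℝ}

/-- ultrametric bound for a finite sum -/
theorem nonarch_sum_le (hv : IsNonarchimedean v) {α : Type*} (s : Finset α) (l : α → K) {B : ℝ}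
    (hB : 0 ≤ B) (h : ∀ i ∈ s, v (l i) ≤ B) : v (∑ i ∈ s, l i) ≤ B := by
  classical
  induction s using Finset.induction with
  | empty => simpa using hB
  | insert a s ha ih =>
    rw [Finset.sum_insert ha]
    refine (hv _ _).trans (max_le (h a (Finset.mem_insert_self a s)) ?_)
    exact ih fun i hi => h i (Finset.mem_insert_of_mem hi)

/-- a root of a polynomial with `v`-integral coefficients and `v`-unit leading coefficient is
`v`-integral -/
theorem nonarch_root_le_one (hv : IsNonarchimedean v) (g : K[X]) (hlead : v g.leadingCoeff = 1)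
    (hcoef : ∀ k, v (g.coeff k) ≤ 1) {y : K} (hy : g.eval y = 0) : v y ≤ 1 := by
  by_contra hcon
  have h1 : 1 < v y := not_le.mp hcon
  have hg0 : g ≠ 0 := by
    rintro rfl
    simp at hlead
  set n := g.natDegree with hn
  rw [eval_eq_sum_range, Finset.sum_range_succ] at hy
  have hy' : g.coeff n * y ^ n = -(∑ k ∈ Finset.range n, g.coeff k * y ^ k) := by
    linear_combination hy
  have hL : v (g.coeff n * y ^ n) = v y ^ n := by
    rw [map_mul, map_pow, show g.coeff n = g.leadingCoeff from rfl, hlead, one_mul]
  have hpos : 0 < v y := lt_trans one_pos h1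
  rcases Nat.eq_zero_or_pos n with h0 | hnpos
  · rw [h0] at hy'
    simp only [pow_zero, mul_one, Finset.range_zero, Finset.sum_empty, neg_zero] at hy'
    rw [show g.coeff 0 = g.leadingCoeff by rw [leadingCoeff, ← hn, h0]] at hy'
    rw [hy'] at hlead
    simp at hlead
  · have hR : v (-(∑ k ∈ Finset.range n, g.coeff k * y ^ k)) ≤ v y ^ (n - 1) := by
      rw [map_neg_eq_map]
      refine nonarch_sum_le hv _ _ (by positivity) fun k hk => ?_
      rw [map_mul, map_pow]
      have hk' : k ≤ n - 1 := by
        have := Finset.mem_range.mp hk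
        omega
      calc v (g.coeff k) * v y ^ k ≤ 1 * v y ^ k := by
            gcongr
            exact hcoef k
        _ = v y ^ k := one_mul _
        _ ≤ v y ^ (n - 1) := pow_le_pow_right₀ h1.le hk'
    rw [← hy', hL] at hR
    have : v y ^ (n - 1) < v y ^ n := pow_lt_pow_right₀ h1 (by omega)
    exact absurd hR (not_le.mpr this)

/-- a nonzero root of a polynomial with `v`-integral coefficients and `v`-unit leading and
constant coefficients is a `v`-unit -/
theorem nonarch_root_eq_one (hv : IsNonarchimedean v) (g : K[X]) (hlead : v g.leadingCoeff = 1)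
    (hconst : v (g.coeff 0) = 1) (hcoef : ∀ k, v (g.coeff k) ≤ 1) {y : K} (hy : g.eval y = 0) :
    v y = 1 := by
  have hle : v y ≤ 1 := nonarch_root_le_one hv g hlead hcoef hy
  have hy0 : y ≠ 0 := by
    rintro rfl
    rw [← coeff_zero_eq_eval_zero] at hy
    rw [hy] at hconst
    simp at hconst
  have hc0 : g.coeff 0 ≠ 0 := by
    intro h
    rw [h] at hconst
    simp at hconst
  have hrev : g.reverse.eval y⁻¹ = 0 := by
    have : Invertible y := invertibleOfNonzero hy0
    have := (eval₂_reverse_eq_zero_iff (RingHom.id K) y g).mpr (by simpa [eval₂_id] using hy)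
    simpa [eval₂_id, invOf_eq_inv] using this
  have hlead' : v g.reverse.leadingCoeff = 1 := by
    rw [reverse_leadingCoeff, trailingCoeff, natTrailingDegree_eq_zero.mpr (Or.inr hc0), hconst]
  have hcoef' : ∀ k, v (g.reverse.coeff k) ≤ 1 := fun k => by
    rw [coeff_reverse]
    exact hcoef _
  have hinv : v y⁻¹ ≤ 1 := nonarch_root_le_one hv g.reverse hlead' hcoef' hrev
  rw [map_inv₀] at hinv
  have hpos : 0 < v y := v.pos hy0
  have : 1 ≤ v y := by
    rwa [inv_le_one₀ hpos] at hinv
  exact le_antisymm hle this

end Nonarch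

/-! ### the local log-plus -/

/-- the local contribution `log⁺ |x|_p` -/
def lp (p : Plc) (x : Qb) : ℝ := Real.log (max 1 (absv p x))

theorem lp_nonneg (p : Plc) (x : Qb) : 0 ≤ lp p x :=
  Real.log_nonneg (le_max_left _ _)

theorem lp_eq_zero_of_le_one {p : Plc} {x : Qb} (h : absv p x ≤ 1) : lp p x = 0 := by
  rw [lp, max_eq_left h, Real.log_one]

@[simp] theorem lp_zero (p : Plc) : lp p 0 = 0 := lp_eq_zero_of_le_one (by simp)

@[simp] theorem lp_one (p : Plc) : lp p 1 = 0 := lp_eq_zero_of_le_one (by simp)

theorem log_absv_le_lp (p : Plc) {x : Qb} (hx : x ≠ 0) : Real.log (absv p x) ≤ lp p x :=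
  Real.log_le_log ((absv p).pos hx) (le_max_right _ _)

theorem lp_mul_le (p : Plc) (x y : Qb) : lp p (x * y) ≤ lp p x + lp p y := by
  unfold lp
  rw [← Real.log_mul (by positivity) (by positivity)]
  apply Real.log_le_log (by positivity)
  rw [map_mul]
  apply max_le
  · exact one_le_mul_of_one_le_of_one_le (le_max_left _ _) (le_max_left _ _)
  · exact mul_le_mul (le_max_right _ _) (le_max_right _ _) ((absv p).nonneg _) (by positivity)

theorem lp_pow (p : Plc) (x : Qb) (n : ℕ) : lp p (x ^ n) = n * lp p x := by
  unfold lp
  rw [map_pow, ← Real.log_pow]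
  congr 1
  rcases le_total (absv p x) 1 with h | h
  · rw [max_eq_left h, max_eq_left (pow_le_one₀ ((absv p).nonneg _) h), one_pow]
  · rw [max_eq_right h, max_eq_right (one_le_pow₀ h)]

theorem lp_sub_lp_inv (p : Plc) {x : Qb} (hx : x ≠ 0) :
    lp p x - lp p x⁻¹ = Real.log (absv p x) := by
  unfold lp
  have hpos : 0 < absv p x := (absv p).pos hx
  rw [map_inv₀]
  rcases le_total (absv p x) 1 with h | h
  · rw [max_eq_left h, max_eq_right ((one_le_inv₀ hpos).mpr h), Real.log_one, Real.log_inv]
    ring
  · rw [max_eq_right h, max_eq_left ((inv_le_one₀ hpos).mpr h), Real.log_one, sub_zero]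

theorem lp_add_le_some (p : Nat.Primes) (x y : Qb) :
    lp (some p) (x + y) ≤ max (lp (some p) x) (lp (some p) y) := by
  unfold lp
  have h := absv_some_isNonarchimedean p x y
  rcases le_total (absv (some p) x) (absv (some p) y) with hxy | hxy
  · rw [max_eq_right hxy] at h
    refine le_trans ?_ (le_max_right _ _)
    exact Real.log_le_log (by positivity) (max_le_max le_rfl h)
  · rw [max_eq_left hxy] at h
    refine le_trans ?_ (le_max_left _ _)
    exact Real.log_le_log (by positivity) (max_le_max le_rfl h)

theorem lp_add_le_none (x y : Qb) :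
    lp none (x + y) ≤ lp none x + lp none y + Real.log 2 := by
  unfold lp
  rw [← Real.log_mul (by positivity) (by positivity), ← Real.log_mul (by positivity) (by norm_num)]
  apply Real.log_le_log (by positivity)
  have hx : absv none x ≤ max 1 (absv none x) := le_max_right _ _
  have hy : absv none y ≤ max 1 (absv none y) := le_max_right _ _
  have hx1 : 1 ≤ max 1 (absv none x) := le_max_left _ _
  have hy1 : 1 ≤ max 1 (absv none y) := le_max_left _ _
  apply max_le
  · nlinarith
  · calc absv none (x + y) ≤ absv none x + absv none y := (absv none).add_le x y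
      _ ≤ max 1 (absv none x) * max 1 (absv none y) * 2 := by nlinarith

end Fermat.Agent.S17lib.HT
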