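/-
S17lib / HT / Support  (helper8) — Project G, block HT, part 3.

Finite support: for `x ≠ 0` in `Qb`, all conjugates of `x` are units at almost all places.
-/
import Mathlib
import Fermat.Agent.S17lib.HT.Local

set_option autoImplicit false

noncomputable section

namespace Fermat.Agent.S17lib.HT

open Polynomial

theorem finite_primes_dvd {n : ℕ} (hn : n ≠ 0) : {p : Nat.Primes | (p : ℕ) ∣ n}.Finite := by
  have hfin : {m : ℕ | m ∣ n}.Finite := by
    refine (Finset.finite_toSet n.divisors).subset fun m hm => ?_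
    simpa [Nat.mem_divisors, hn] using hm
  have hEq : {p : Nat.Primes | (p : ℕ) ∣ n} = (fun p : Nat.Primes => (p : ℕ)) ⁻¹' {m : ℕ | m ∣ n} := rfl
  rw [hEq]
  exact hfin.preimage (Nat.Primes.coe_nat_injective.injOn)

theorem finite_padicNorm_ne_one {q : ℚ} (hq : q ≠ 0) :
    {p : Nat.Primes | padicNorm (p : ℕ) q ≠ 1}.Finite := by
  have hnum : q.num.natAbs ≠ 0 := by
    simpa using hq
  refine ((finite_primes_dvd hnum).union (finite_primes_dvd q.den_nz)).subset fun p hp => ?_
  by_contra hcon
  simp only [Set.mem_union, Set.mem_ofPred_eq, not_or] at hcon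
  apply hp
  have h1 : padicNorm (p : ℕ) (q.num : ℚ) = 1 := by
    rw [padicNorm.int_eq_one_iff]
    intro h
    exact hcon.1 (by exact_mod_cast Int.natAbs_dvd_natAbs.mpr h)
  have h2 : padicNorm (p : ℕ) (q.den : ℚ) = 1 := by
    rw [padicNorm.nat_eq_one_iff]
    exact hcon.2
  have hq' : q = (q.num : ℚ) / (q.den : ℚ) := (Rat.num_div_den q).symm
  rw [hq', padicNorm.div, h1, h2, div_one]

/-- the minimal polynomial of `x`, with coefficients in `Qb` -/
def mpQb (x : Qb) : Qb[X] := (minpoly ℚ x).map (algebraMap ℚ Qb)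

theorem mpQb_eval_conj (x : Qb) (σ : GQ) : (mpQb x).eval (σ x) = 0 := by
  rw [mpQb, eval_map_algebraMap]
  have h := minpoly.aeval ℚ x
  have := congrArg σ h
  rwa [← aeval_algHom_apply, map_zero] at this

theorem finite_absv_conj_ne_one {x : Qb} (hx : x ≠ 0) :
    {p : Plc | ∃ σ : GQ, absv p (σ x) ≠ 1}.Finite := by
  classical
  set f := minpoly ℚ x with hf
  have hint : IsIntegral ℚ x := Algebra.IsIntegral.isIntegral x
  have hmonic : f.Monic := minpoly.monic hint
  have hc0 : f.coeff 0 ≠ 0 := minpoly.coeff_zero_ne_zero hint hx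
  -- the bad primes
  let S : Set Nat.Primes :=
    ⋃ k ∈ (Finset.range (f.natDegree + 1)).filter (fun k => f.coeff k ≠ 0),
      {p : Nat.Primes | padicNorm (p : ℕ) (f.coeff k) ≠ 1}
  have hS : S.Finite := by
    refine Set.Finite.biUnion (Finset.finite_toSet _) fun k hk => ?_
    exact finite_padicNorm_ne_one (Finset.mem_filter.mp hk).2
  have hgood : ∀ p : Nat.Primes, p ∉ S → ∀ k, padicNorm (p : ℕ) (f.coeff k) ≠ 1 → f.coeff k = 0 := by
    intro p hp k hk
    by_contra h0
    apply hp
    simp only [S, Set.mem_iUnion, Set.mem_ofPred_eq]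
    refine ⟨k, ?_, hk⟩
    rw [Finset.mem_filter, Finset.mem_range]
    refine ⟨?_, h0⟩
    by_contra hlt
    exact h0 (coeff_eq_zero_of_natDegree_lt (by omega))
  refine ((Set.finite_singleton (none : Plc)).union (hS.image some)).subset ?_
  rintro (_ | p) ⟨σ, hσ⟩
  · exact Or.inl rfl
  · right
    refine ⟨p, ?_, rfl⟩
    by_contra hp
    apply hσ
    have hcoef : ∀ k, absv (some p) ((mpQb x).coeff k) ≤ 1 := by
      intro k
      rw [mpQb, coeff_map, absv_some_rat]
      by_cases h1 : padicNorm (p : ℕ) (f.coeff k) = 1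
      · rw [h1]; simp
      · rw [hgood p hp k h1]; simp
    have hlead : absv (some p) (mpQb x).leadingCoeff = 1 := by
      rw [mpQb, (hmonic.map _).leadingCoeff]; simp
    have hconst : absv (some p) ((mpQb x).coeff 0) = 1 := by
      rw [mpQb, coeff_map, absv_some_rat]
      by_contra h1
      exact hc0 (hgood p hp 0 (by exact_mod_cast h1))
    exact nonarch_root_eq_one (absv_some_isNonarchimedean p) (mpQb x) hlead hconst hcoef
      (mpQb_eval_conj x σ)

theorem finite_lp_conj_ne_zero (x : Qb) : {p : Plc | ∃ σ : GQ, lp p (σ x) ≠ 0}.Finite := by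
  rcases eq_or_ne x 0 with rfl | hx
  · convert Set.finite_empty
    ext p
    simp
  · refine (finite_absv_conj_ne_one hx).subset ?_
    rintro p ⟨σ, hσ⟩
    refine ⟨σ, fun h => hσ ?_⟩
    exact lp_eq_zero_of_le_one h.le

theorem finite_log_absv_conj_ne_zero (x : Qb) :
    {p : Plc | ∃ σ : GQ, Real.log (absv p (σ x)) ≠ 0}.Finite := by
  rcases eq_or_ne x 0 with rfl | hx
  · convert Set.finite_empty
    ext p
    simp
  · refine (finite_absv_conj_ne_one hx).subset ?_
    rintro p ⟨σ, hσ⟩
    refine ⟨σ, fun h => hσ ?_⟩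
    rw [h, Real.log_one]

end Fermat.Agent.S17lib.HT
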