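/-
S17lib / HT / Orbit  (helper8) — Project G, block HT, part 4.

Averages over finite orbits of a group action; the averaging lemma (an equivariant map between
finite orbits has fibres of constant cardinality, so it preserves averages).  This replaces the
extension formula `Σ e·f = n` of the number-field formalism.
-/
import Mathlib
import Fermat.Agent.S17lib.HT.Support

set_option autoImplicit false

noncomputable section

namespace Fermat.Agent.S17lib.HT

open MulAction

section Avg

variable {G α β : Type*} [Group G] [MulAction G α] [MulAction G β]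

theorem orbit_toFinset_nonempty {a : α} (ha : (orbit G a).Finite) : ha.toFinset.Nonempty :=
  ⟨a, ha.mem_toFinset.mpr (mem_orbit_self a)⟩

theorem orbit_card_pos {a : α} (ha : (orbit G a).Finite) : 0 < ha.toFinset.card :=
  Finset.card_pos.mpr (orbit_toFinset_nonempty ha)

/-- the averaging lemma, in cross-multiplied form -/
theorem card_mul_sum_orbit_comp [DecidableEq β] (f : α → β) (hf : ∀ (g : G) (a : α), f (g • a) = g • f a)
    (a : α) (ha : (orbit G a).Finite) (hb : (orbit G (f a)).Finite) (φ : β → ℝ) :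
    (hb.toFinset.card : ℝ) * ∑ a' ∈ ha.toFinset, φ (f a')
      = (ha.toFinset.card : ℝ) * ∑ b ∈ hb.toFinset, φ b := by
  set A := ha.toFinset with hA
  set B := hb.toFinset with hB
  have hmaps : ∀ a' ∈ A, f a' ∈ B := by
    intro a' ha'
    obtain ⟨g, rfl⟩ := ha.mem_toFinset.mp ha'
    rw [hB, hb.mem_toFinset]
    exact ⟨g, (hf g a).symm⟩
  set c := (A.filter fun a' => f a' = f a).card with hc
  have hfib : ∀ b ∈ B, (A.filter fun a' => f a' = b).card = c := by
    intro b hb'
    obtain ⟨g, rfl⟩ := hb.mem_toFinset.mp hb'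
    symm
    refine Finset.card_nbij' (fun a' => g • a') (fun a' => g⁻¹ • a') ?_ ?_ ?_ ?_
    · intro a' ha'
      rw [Finset.mem_coe, Finset.mem_filter] at ha' ⊢
      refine ⟨?_, ?_⟩
      · rw [hA, ha.mem_toFinset] at ha' ⊢
        exact mem_orbit_of_mem_orbit g ha'.1
      · show f (g • a') = g • f a
        rw [hf, ha'.2]
    · intro a' ha'
      rw [Finset.mem_coe, Finset.mem_filter] at ha' ⊢
      refine ⟨?_, ?_⟩
      · rw [hA, ha.mem_toFinset] at ha' ⊢
        exact mem_orbit_of_mem_orbit g⁻¹ ha'.1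
      · have h2 : f a' = g • f a := ha'.2
        rw [hf, h2, inv_smul_smul]
    · intro a' _
      exact inv_smul_smul g a'
    · intro a' _
      exact smul_inv_smul g a'
  have hsum : ∑ a' ∈ A, φ (f a') = (c : ℝ) * ∑ b ∈ B, φ b := by
    rw [← Finset.sum_fiberwise_of_maps_to hmaps, Finset.mul_sum]
    refine Finset.sum_congr rfl fun b hb' => ?_
    rw [Finset.sum_congr rfl (fun a' ha' => by rw [(Finset.mem_filter.mp ha').2] :
      ∀ a' ∈ A.filter (fun a' => f a' = b), φ (f a') = φ b), Finset.sum_const, hfib b hb',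
      nsmul_eq_mul]
  have hcard : (A.card : ℝ) = (c : ℝ) * (B.card : ℝ) := by
    rw [Finset.card_eq_sum_card_fiberwise hmaps, Finset.sum_congr rfl hfib, Finset.sum_const,
      smul_eq_mul]
    push_cast
    ring
  rw [hsum, hcard]
  ring

/-- the average of `Ψ` over the (finite) orbit of `a` -/
def oavg (a : α) (ha : (orbit G a).Finite) (Ψ : α → ℝ) : ℝ :=
  (∑ a' ∈ ha.toFinset, Ψ a') / ha.toFinset.card

/-- the averaging lemma -/
theorem oavg_comp (f : α → β) (hf : ∀ (g : G) (a : α), f (g • a) = g • f a)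
    (a : α) (ha : (orbit G a).Finite) (hb : (orbit G (f a)).Finite) (φ : β → ℝ) :
    oavg a ha (fun a' => φ (f a')) = oavg (f a) hb φ := by
  classical
  have h := card_mul_sum_orbit_comp f hf a ha hb φ
  have hA : (0 : ℝ) < ha.toFinset.card := by exact_mod_cast orbit_card_pos ha
  have hB : (0 : ℝ) < hb.toFinset.card := by exact_mod_cast orbit_card_pos hb
  unfold oavg
  rw [div_eq_div_iff hA.ne' hB.ne']
  linarith

theorem oavg_mono {a : α} (ha : (orbit G a).Finite) {Ψ Ψ' : α → ℝ}
    (h : ∀ g : G, Ψ (g • a) ≤ Ψ' (g • a)) : oavg a ha Ψ ≤ oavg a ha Ψ' := by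
  unfold oavg
  gcongr with a' ha'
  obtain ⟨g, rfl⟩ := ha.mem_toFinset.mp ha'
  exact h g

theorem oavg_add {a : α} (ha : (orbit G a).Finite) (Ψ Ψ' : α → ℝ) :
    oavg a ha (fun a' => Ψ a' + Ψ' a') = oavg a ha Ψ + oavg a ha Ψ' := by
  unfold oavg
  rw [Finset.sum_add_distrib, add_div]

theorem oavg_const_mul {a : α} (ha : (orbit G a).Finite) (c : ℝ) (Ψ : α → ℝ) :
    oavg a ha (fun a' => c * Ψ a') = c * oavg a ha Ψ := by
  unfold oavg
  rw [← Finset.mul_sum, mul_div_assoc]

theorem oavg_const {a : α} (ha : (orbit G a).Finite) (c : ℝ) :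
    oavg a ha (fun _ => c) = c := by
  unfold oavg
  have hA : (0 : ℝ) < ha.toFinset.card := by exact_mod_cast orbit_card_pos ha
  rw [Finset.sum_const, nsmul_eq_mul]
  field_simp

theorem oavg_congr {a : α} (ha : (orbit G a).Finite) {Ψ Ψ' : α → ℝ}
    (h : ∀ g : G, Ψ (g • a) = Ψ' (g • a)) : oavg a ha Ψ = oavg a ha Ψ' :=
  le_antisymm (oavg_mono ha fun g => (h g).le) (oavg_mono ha fun g => (h g).ge)

/-- the orbit of a translate is the same orbit -/
theorem oavg_smul (g : G) {a : α} (ha : (orbit G a).Finite) (hga : (orbit G (g • a)).Finite)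
    (Ψ : α → ℝ) : oavg (g • a) hga Ψ = oavg a ha Ψ := by
  unfold oavg
  have : hga.toFinset = ha.toFinset := by
    ext x
    rw [hga.mem_toFinset, ha.mem_toFinset, orbit_smul]
  rw [this]

end Avg

/-! ### orbits of `GQ` on `Qb` and on tuples -/

theorem finite_orbit_Qb (x : Qb) : (orbit GQ x).Finite := by
  refine ((minpoly ℚ x).rootSet_finite Qb).subset ?_
  rintro _ ⟨σ, rfl⟩
  have hint : IsIntegral ℚ x := Algebra.IsIntegral.isIntegral x
  rw [Polynomial.mem_rootSet]
  refine ⟨minpoly.ne_zero hint, ?_⟩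
  show Polynomial.aeval (σ x) (minpoly ℚ x) = 0
  have := congrArg σ (minpoly.aeval ℚ x)
  rwa [← Polynomial.aeval_algHom_apply, map_zero] at this

theorem finite_orbit_tuple {ι : Type*} [Finite ι] (z : ι → Qb) : (orbit GQ z).Finite := by
  refine (Set.Finite.pi fun i => finite_orbit_Qb (z i)).subset ?_
  rintro _ ⟨σ, rfl⟩ i _
  exact ⟨σ, rfl⟩

end Fermat.Agent.S17lib.HT
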