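/-
S17lib / HT / RatPF  (helper8) — Project G, block HT, part 5.

The product formula for `ℚ` in the form `∑ᶠ p, log |q|_p = 0` (sum over `Plc`).
-/
import Mathlib
import Fermat.Agent.S17lib.HT.Orbit

set_option autoImplicit false

noncomputable section

namespace Fermat.Agent.S17lib.HT

open Function

/-- `log |q|_p` for a rational number `q` -/
def logAbsQ (q : ℚ) (p : Plc) : ℝ := Real.log (absv p (algebraMap ℚ Qb q))

theorem logAbsQ_mul {q q' : ℚ} (hq : q ≠ 0) (hq' : q' ≠ 0) (p : Plc) :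
    logAbsQ (q * q') p = logAbsQ q p + logAbsQ q' p := by
  unfold logAbsQ
  rw [map_mul, map_mul, Real.log_mul]
  · exact ((absv p).pos ((map_ne_zero _).mpr hq)).ne'
  · exact ((absv p).pos ((map_ne_zero _).mpr hq')).ne'

theorem logAbsQ_hasFiniteSupport (q : ℚ) : (logAbsQ q).HasFiniteSupport := by
  rcases eq_or_ne q 0 with rfl | hq
  · have : logAbsQ 0 = fun _ => 0 := by
      funext p
      simp [logAbsQ]
    rw [this]
    exact Set.finite_empty.subset (by simp [Function.support])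
  · have hx : algebraMap ℚ Qb q ≠ 0 := (map_ne_zero _).mpr hq
    refine (finite_log_absv_conj_ne_zero (algebraMap ℚ Qb q)).subset fun p hp => ?_
    exact ⟨1, by simpa [logAbsQ] using hp⟩

theorem finsum_logAbsQ_mul {q q' : ℚ} (hq : q ≠ 0) (hq' : q' ≠ 0) :
    ∑ᶠ p, logAbsQ (q * q') p = (∑ᶠ p, logAbsQ q p) + ∑ᶠ p, logAbsQ q' p := by
  rw [← finsum_add_distrib (logAbsQ_hasFiniteSupport q) (logAbsQ_hasFiniteSupport q')]
  exact finsum_congr fun p => logAbsQ_mul hq hq' p

theorem finsum_logAbsQ_one : ∑ᶠ p, logAbsQ 1 p = 0 := by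
  have : logAbsQ 1 = fun _ => 0 := by
    funext p
    simp [logAbsQ]
  rw [this, finsum_zero]

theorem finsum_logAbsQ_neg (q : ℚ) : ∑ᶠ p, logAbsQ (-q) p = ∑ᶠ p, logAbsQ q p := by
  refine finsum_congr fun p => ?_
  simp [logAbsQ]

theorem finsum_logAbsQ_prime {p' : ℕ} (hp' : p'.Prime) : ∑ᶠ p, logAbsQ (p' : ℚ) p = 0 := by
  classical
  let P : Nat.Primes := ⟨p', hp'⟩
  have hsupp : support (logAbsQ (p' : ℚ)) ⊆ (({none, some P} : Finset Plc) : Set Plc) := by
    intro p hp
    rcases p with _ | p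
    · simp
    · by_cases hpP : p = P
      · subst hpP; simp
      · exfalso
        apply hp
        have hne : (p : ℕ) ≠ p' := fun h => hpP (Subtype.ext h)
        have : Fact (p' : ℕ).Prime := ⟨hp'⟩
        have : padicNorm (p : ℕ) ((p' : ℕ) : ℚ) = 1 := padicNorm.padicNorm_of_prime_of_ne hne
        simp only [logAbsQ, absv_some_rat]
        rw [this]
        simp
  rw [finsum_eq_finsetSum_of_support_subset _ hsupp]
  rw [Finset.sum_pair (by simp)]
  have h1 : logAbsQ (p' : ℚ) none = Real.log p' := by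
    simp only [logAbsQ, absv_none_rat]
    simp
  have h2 : logAbsQ (p' : ℚ) (some P) = -Real.log p' := by
    simp only [logAbsQ, absv_some_rat]
    have : padicNorm (P : ℕ) ((p' : ℕ) : ℚ) = (p' : ℚ)⁻¹ := by
      have : Fact (p' : ℕ).Prime := ⟨hp'⟩
      exact padicNorm.padicNorm_p_of_prime
    rw [this]
    push_cast
    rw [Real.log_inv]
  rw [h1, h2]
  ring

theorem finsum_logAbsQ_nat (n : ℕ) (hn : n ≠ 0) : ∑ᶠ p, logAbsQ (n : ℚ) p = 0 := by
  induction n using Nat.recOnMul with
  | zero => exact absurd rfl hn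
  | one => simpa using finsum_logAbsQ_one
  | prime p hp => exact finsum_logAbsQ_prime hp
  | mul a b ha hb =>
    have ha0 : a ≠ 0 := fun h => hn (by simp [h])
    have hb0 : b ≠ 0 := fun h => hn (by simp [h])
    push_cast
    rw [finsum_logAbsQ_mul (by exact_mod_cast ha0) (by exact_mod_cast hb0), ha ha0, hb hb0,
      add_zero]

/-- the product formula for `ℚ` -/
theorem finsum_logAbsQ (q : ℚ) (hq : q ≠ 0) : ∑ᶠ p, logAbsQ q p = 0 := by
  have hden : (q.den : ℚ) ≠ 0 := by exact_mod_cast q.den_nz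
  have hnum : q.num ≠ 0 := Rat.num_ne_zero.mpr hq
  have hmul : q * (q.den : ℚ) = (q.num : ℚ) := Rat.mul_den_eq_num q
  have h1 : ∑ᶠ p, logAbsQ (q * (q.den : ℚ)) p = 0 := by
    rw [hmul]
    obtain ⟨n, hn | hn⟩ := Int.eq_nat_or_neg q.num
    · have hn0 : n ≠ 0 := by
        rintro rfl
        exact hnum (by simpa using hn)
      rw [hn]
      exact_mod_cast finsum_logAbsQ_nat n hn0
    · have hn0 : n ≠ 0 := by
        rintro rfl
        exact hnum (by simpa using hn)
      rw [hn]
      push_cast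
      rw [finsum_logAbsQ_neg]
      exact finsum_logAbsQ_nat n hn0
  rw [finsum_logAbsQ_mul hq hden, finsum_logAbsQ_nat _ q.den_nz, add_zero] at h1
  exact h1

end Fermat.Agent.S17lib.HT
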