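/-
S17lib / HT / Height  (helper8) — Project G, block HT, part 6.

The absolute logarithmic Weil height `h1 : Qb → ℝ`, the product formula on `Qb`, and the MASTER
LEMMA: a linear inequality between local terms `lp p (σ zᵢ)`, `log |σ zᵢ|_p`, valid for every place
`p` and every `σ : GQ`, gives the corresponding inequality between heights.
-/
import Mathlib
import Fermat.Agent.S17lib.HT.RatPF

set_option autoImplicit false

noncomputable section

namespace Fermat.Agent.S17lib.HT

open Function MulAction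

theorem smul_def_Qb (σ : GQ) (x : Qb) : σ • x = σ x := rfl

theorem smul_tuple_apply {ι : Type*} (σ : GQ) (z : ι → Qb) (i : ι) : (σ • z) i = σ (z i) := rfl

/-- the absolute logarithmic Weil height of an algebraic number -/
def h1 (x : Qb) : ℝ := oavg x (finite_orbit_Qb x) fun y => ∑ᶠ p, lp p y

theorem fs_lp (x : Qb) : (fun p => lp p x).HasFiniteSupport :=
  (finite_lp_conj_ne_zero x).subset fun p hp => ⟨1, by simpa using hp⟩

theorem fs_logabs (x : Qb) : (fun p => Real.log (absv p x)).HasFiniteSupport :=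
  (finite_log_absv_conj_ne_zero x).subset fun p hp => ⟨1, by simpa using hp⟩

theorem finsum_lp_nonneg (x : Qb) : 0 ≤ ∑ᶠ p, lp p x :=
  finsum_nonneg fun p => lp_nonneg p x

theorem h1_nonneg (x : Qb) : 0 ≤ h1 x := by
  unfold h1 oavg
  exact div_nonneg (Finset.sum_nonneg fun y _ => finsum_lp_nonneg y) (Nat.cast_nonneg _)

theorem h1_conj (σ : GQ) (x : Qb) : h1 (σ x) = h1 x :=
  oavg_smul σ (finite_orbit_Qb x) (finite_orbit_Qb (σ • x)) _

/-- averaging a coordinate of a tuple over the orbit of the tuple -/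
theorem oavg_coord {ι : Type*} [Finite ι] (z : ι → Qb) (i : ι) (φ : Qb → ℝ) :
    oavg z (finite_orbit_tuple z) (fun z' => φ (z' i)) = oavg (z i) (finite_orbit_Qb (z i)) φ :=
  oavg_comp (fun z' : ι → Qb => z' i) (fun _ _ => rfl) z _ _ φ

theorem oavg_lp_coord {ι : Type*} [Finite ι] (z : ι → Qb) (i : ι) :
    oavg z (finite_orbit_tuple z) (fun z' => ∑ᶠ p, lp p (z' i)) = h1 (z i) :=
  oavg_coord z i (fun y => ∑ᶠ p, lp p y)

/-! ### the product formula on `Qb` -/

/-- the product of the conjugates of `x` -/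
def orbProd (x : Qb) : Qb := ∏ y ∈ (finite_orbit_Qb x).toFinset, y

theorem orbProd_fixed (x : Qb) (σ : GQ) : σ (orbProd x) = orbProd x := by
  unfold orbProd
  rw [map_prod]
  refine Finset.prod_nbij' (fun y => σ y) (fun y => σ.symm y) ?_ ?_ ?_ ?_ ?_
  · intro y hy
    rw [Set.Finite.mem_toFinset] at hy ⊢
    exact mem_orbit_of_mem_orbit σ hy
  · intro y hy
    rw [Set.Finite.mem_toFinset] at hy ⊢
    exact mem_orbit_of_mem_orbit σ.symm hy
  · intro y _; simp
  · intro y _; simp
  · intro y _; rfl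

theorem orbProd_ne_zero {x : Qb} (hx : x ≠ 0) : orbProd x ≠ 0 := by
  unfold orbProd
  rw [Finset.prod_ne_zero_iff]
  intro y hy
  rw [Set.Finite.mem_toFinset] at hy
  obtain ⟨σ, rfl⟩ := hy
  exact (map_ne_zero σ).mpr hx

instance isGaloisQb : IsGalois ℚ Qb := by
  have h : (AlgebraicClosure.instAlgebra ℚ : Algebra ℚ Qb) = DivisionRing.toRatAlgebra :=
    Subsingleton.elim _ _
  rw [← h]
  exact IsAlgClosure.isGalois ℚ _

theorem exists_rat_orbProd (x : Qb) : ∃ q : ℚ, algebraMap ℚ Qb q = orbProd x :=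
  (InfiniteGalois.mem_range_algebraMap_iff_fixed (k := ℚ) (K := Qb) (orbProd x)).mpr
    (orbProd_fixed x)

/-- the product formula: the orbit average of `Σ_p log |y|_p` vanishes -/
theorem oavg_logabs {x : Qb} (hx : x ≠ 0) :
    oavg x (finite_orbit_Qb x) (fun y => ∑ᶠ p, Real.log (absv p y)) = 0 := by
  unfold oavg
  rw [div_eq_zero_iff]
  left
  rw [← finsum_sum_comm _ _ fun y _ => fs_logabs y]
  obtain ⟨q, hq⟩ := exists_rat_orbProd x
  have hq0 : q ≠ 0 := by
    rintro rfl
    rw [map_zero] at hq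
    exact orbProd_ne_zero hx hq.symm
  rw [← finsum_logAbsQ q hq0]
  refine finsum_congr fun p => ?_
  rw [logAbsQ, hq, orbProd, map_prod, Real.log_prod]
  intro y hy
  rw [Set.Finite.mem_toFinset] at hy
  obtain ⟨σ, rfl⟩ := hy
  exact ((absv p).pos ((map_ne_zero σ).mpr hx)).ne'

theorem oavg_logabs_coord {ι : Type*} [Finite ι] (z : ι → Qb) (i : ι) (hi : z i ≠ 0) :
    oavg z (finite_orbit_tuple z) (fun z' => ∑ᶠ p, Real.log (absv p (z' i))) = 0 := by
  rw [oavg_coord z i (fun y => ∑ᶠ p, Real.log (absv p y))]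
  exact oavg_logabs hi

/-! ### the master lemma -/

theorem oavg_finset_sum {G α : Type*} [Group G] [MulAction G α] {a : α}
    (ha : (orbit G a).Finite) {ι : Type*} (s : Finset ι) (Ψ : ι → α → ℝ) :
    oavg a ha (fun a' => ∑ i ∈ s, Ψ i a') = ∑ i ∈ s, oavg a ha (Ψ i) := by
  unfold oavg
  rw [Finset.sum_comm, Finset.sum_div]

theorem fs_linear {ι : Type*} [Fintype ι] (z : ι → Qb) (α β : ι → ℝ) :
    (fun p => ∑ i, α i * lp p (z i) + ∑ i, β i * Real.log (absv p (z i))).HasFiniteSupport := by
  have h1 : (⋃ i : ι, support (fun p => lp p (z i))).Finite :=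
    Set.finite_iUnion fun i => fs_lp (z i)
  have h2 : (⋃ i : ι, support (fun p => Real.log (absv p (z i)))).Finite :=
    Set.finite_iUnion fun i => fs_logabs (z i)
  refine (h1.union h2).subset fun p hp => ?_
  by_contra hcon
  simp only [Set.mem_union, Set.mem_iUnion, mem_support, not_or, not_exists, not_not] at hcon
  apply hp
  simp only [hcon.1, hcon.2, mul_zero, Finset.sum_const_zero, add_zero]

theorem finsum_linear {ι : Type*} [Fintype ι] (z : ι → Qb) (α β : ι → ℝ) :
    ∑ᶠ p, (∑ i, α i * lp p (z i) + ∑ i, β i * Real.log (absv p (z i)))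
      = ∑ i, α i * (∑ᶠ p, lp p (z i)) + ∑ i, β i * ∑ᶠ p, Real.log (absv p (z i)) := by
  have hA : ∀ i, (fun p => α i * lp p (z i)).HasFiniteSupport := fun i =>
    (fs_lp (z i)).subset fun p hp => by
      simp only [mem_support] at hp ⊢
      exact fun h => hp (by rw [h, mul_zero])
  have hB : ∀ i, (fun p => β i * Real.log (absv p (z i))).HasFiniteSupport := fun i =>
    (fs_logabs (z i)).subset fun p hp => by
      simp only [mem_support] at hp ⊢
      exact fun h => hp (by rw [h, mul_zero])
  have hA' : (fun p => ∑ i, α i * lp p (z i)).HasFiniteSupport := by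
    refine (Set.finite_iUnion fun i => hA i).subset fun p hp => ?_
    by_contra hcon
    simp only [Set.mem_iUnion, mem_support, not_exists, not_not] at hcon
    exact hp (by simp only [hcon, Finset.sum_const_zero])
  have hB' : (fun p => ∑ i, β i * Real.log (absv p (z i))).HasFiniteSupport := by
    refine (Set.finite_iUnion fun i => hB i).subset fun p hp => ?_
    by_contra hcon
    simp only [Set.mem_iUnion, mem_support, not_exists, not_not] at hcon
    exact hp (by simp only [hcon, Finset.sum_const_zero])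
  rw [finsum_add_distrib hA' hB', finsum_sum_comm _ _ fun i _ => hA i,
    finsum_sum_comm _ _ fun i _ => hB i]
  congr 1
  · exact Finset.sum_congr rfl fun i _ => (mul_finsum _ _).symm
  · exact Finset.sum_congr rfl fun i _ => (mul_finsum _ _).symm

/-- **The master lemma.**  A linear inequality between the local terms, valid at every place and
for every Galois conjugate of the data, gives the inequality between the heights. -/
theorem master {ι : Type*} [Fintype ι] (z : ι → Qb) (α β : ι → ℝ)
    (hβ : ∀ i, z i = 0 → β i = 0) (c : Plc → ℝ) (hc : c.HasFiniteSupport)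
    (hloc : ∀ (σ : GQ) (p : Plc),
      ∑ i, α i * lp p (σ (z i)) + ∑ i, β i * Real.log (absv p (σ (z i))) ≤ c p) :
    ∑ i, α i * h1 (z i) ≤ ∑ᶠ p, c p := by
  set Ψ : (ι → Qb) → ℝ := fun z' =>
    ∑ᶠ p, (∑ i, α i * lp p (z' i) + ∑ i, β i * Real.log (absv p (z' i))) with hΨ
  have hz := finite_orbit_tuple z
  have h1' : oavg z hz Ψ ≤ ∑ᶠ p, c p := by
    calc oavg z hz Ψ ≤ oavg z hz (fun _ => ∑ᶠ p, c p) := by
          refine oavg_mono hz fun σ => ?_
          exact finsum_le_finsum' (fs_linear (σ • z) α β) hc fun p => hloc σ p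
      _ = ∑ᶠ p, c p := oavg_const hz _
  have h2 : oavg z hz Ψ = ∑ i, α i * h1 (z i) := by
    have hΨ' : Ψ = fun z' => ∑ i, α i * (∑ᶠ p, lp p (z' i))
        + ∑ i, β i * ∑ᶠ p, Real.log (absv p (z' i)) := by
      funext z'
      exact finsum_linear z' α β
    rw [hΨ', oavg_add, oavg_finset_sum, oavg_finset_sum]
    have hB : ∑ i, oavg z hz (fun z' => β i * ∑ᶠ p, Real.log (absv p (z' i))) = 0 := by
      refine Finset.sum_eq_zero fun i _ => ?_
      rw [oavg_const_mul]
      by_cases hi : z i = 0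
      · rw [hβ i hi, zero_mul]
      · rw [oavg_logabs_coord z i hi, mul_zero]
    rw [hB, add_zero]
    refine Finset.sum_congr rfl fun i _ => ?_
    rw [oavg_const_mul, oavg_lp_coord]
  rw [← h2]
  exact h1'

end Fermat.Agent.S17lib.HT
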