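/-
S17lib / HT / Basic  (helper8) — Project G, block HT, part 7.

Basic properties of the absolute logarithmic height `h1`, all obtained from the master lemma.
-/
import Mathlib
import Fermat.Agent.S17lib.HT.Height

set_option autoImplicit false

noncomputable section

namespace Fermat.Agent.S17lib.HT

open Function MulAction

theorem hasFiniteSupport_zero : (fun _ : Plc => (0 : ℝ)).HasFiniteSupport :=
  Set.finite_empty.subset (by simp [Function.support])

/-- the function `log 2` at the real place, `0` elsewhere -/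
def cArch (r : ℝ) : Plc → ℝ := fun p => if p = none then r else 0

theorem cArch_hasFiniteSupport (r : ℝ) : (cArch r).HasFiniteSupport :=
  (Set.finite_singleton (none : Plc)).subset fun p hp => by
    by_contra h
    simp only [Set.mem_singleton_iff] at h
    exact hp (by simp [cArch, h])

theorem finsum_cArch (r : ℝ) : ∑ᶠ p, cArch r p = r := by
  rw [finsum_eq_single (cArch r) none fun p hp => by simp [cArch, hp]]
  simp [cArch]

theorem master3 (x₀ x₁ x₂ : Qb) (a₀ a₁ a₂ b₀ b₁ b₂ : ℝ)
    (hb₀ : x₀ = 0 → b₀ = 0) (hb₁ : x₁ = 0 → b₁ = 0) (hb₂ : x₂ = 0 → b₂ = 0)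
    (c : Plc → ℝ) (hc : c.HasFiniteSupport)
    (hloc : ∀ (σ : GQ) (p : Plc),
      a₀ * lp p (σ x₀) + a₁ * lp p (σ x₁) + a₂ * lp p (σ x₂)
        + (b₀ * Real.log (absv p (σ x₀)) + b₁ * Real.log (absv p (σ x₁))
          + b₂ * Real.log (absv p (σ x₂))) ≤ c p) :
    a₀ * h1 x₀ + a₁ * h1 x₁ + a₂ * h1 x₂ ≤ ∑ᶠ p, c p := by
  have h := master ![x₀, x₁, x₂] ![a₀, a₁, a₂] ![b₀, b₁, b₂]
    (fun i hi => by
      fin_cases i
      · exact hb₀ hi
      · exact hb₁ hi
      · exact hb₂ hi) c hc (fun σ p => by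
      have := hloc σ p
      simpa [Fin.sum_univ_three] using this)
  simpa [Fin.sum_univ_three] using h

theorem master2 (x₀ x₁ : Qb) (a₀ a₁ b₀ b₁ : ℝ)
    (hb₀ : x₀ = 0 → b₀ = 0) (hb₁ : x₁ = 0 → b₁ = 0)
    (c : Plc → ℝ) (hc : c.HasFiniteSupport)
    (hloc : ∀ (σ : GQ) (p : Plc),
      a₀ * lp p (σ x₀) + a₁ * lp p (σ x₁)
        + (b₀ * Real.log (absv p (σ x₀)) + b₁ * Real.log (absv p (σ x₁))) ≤ c p) :
    a₀ * h1 x₀ + a₁ * h1 x₁ ≤ ∑ᶠ p, c p := by
  have h := master ![x₀, x₁] ![a₀, a₁] ![b₀, b₁]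
    (fun i hi => by
      fin_cases i
      · exact hb₀ hi
      · exact hb₁ hi) c hc (fun σ p => by
      have := hloc σ p
      simpa [Fin.sum_univ_two] using this)
  simpa [Fin.sum_univ_two] using h

theorem h1_mul_le (x y : Qb) : h1 (x * y) ≤ h1 x + h1 y := by
  have h := master3 x y (x * y) (-1) (-1) 1 0 0 0 (fun _ => rfl) (fun _ => rfl) (fun _ => rfl)
    (fun _ => 0) hasFiniteSupport_zero (fun σ p => by
      rw [map_mul]
      have := lp_mul_le p (σ x) (σ y)
      linarith)
  rw [finsum_zero] at h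
  linarith

theorem h1_add_le (x y : Qb) : h1 (x + y) ≤ h1 x + h1 y + Real.log 2 := by
  have h := master3 x y (x + y) (-1) (-1) 1 0 0 0 (fun _ => rfl) (fun _ => rfl) (fun _ => rfl)
    (cArch (Real.log 2)) (cArch_hasFiniteSupport _) (fun σ p => by
      rw [map_add]
      rcases p with _ | p
      · have := lp_add_le_none (σ x) (σ y)
        simp only [cArch, if_true]
        linarith
      · have := lp_add_le_some p (σ x) (σ y)
        have h1 := lp_nonneg (some p) (σ x)
        have h2 := lp_nonneg (some p) (σ y)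
        have h3 : max (lp (some p) (σ x)) (lp (some p) (σ y))
            ≤ lp (some p) (σ x) + lp (some p) (σ y) := max_le (by linarith) (by linarith)
        simp only [cArch, reduceCtorEq, if_false]
        linarith)
  rw [finsum_cArch] at h
  linarith

theorem h1_pow (x : Qb) (n : ℕ) : h1 (x ^ n) = n * h1 x := by
  apply le_antisymm
  · have h := master2 x (x ^ n) (-(n : ℝ)) 1 0 0 (fun _ => rfl) (fun _ => rfl)
      (fun _ => 0) hasFiniteSupport_zero (fun σ p => by
        rw [map_pow, lp_pow]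
        linarith)
    rw [finsum_zero] at h
    linarith
  · have h := master2 x (x ^ n) (n : ℝ) (-1) 0 0 (fun _ => rfl) (fun _ => rfl)
      (fun _ => 0) hasFiniteSupport_zero (fun σ p => by
        rw [map_pow, lp_pow]
        linarith)
    rw [finsum_zero] at h
    linarith

theorem h1_neg (x : Qb) : h1 (-x) = h1 x := by
  have hl : ∀ (σ : GQ) (p : Plc), lp p (σ (-x)) = lp p (σ x) := fun σ p => by
    rw [map_neg, lp, lp, map_neg_eq_map]
  apply le_antisymm
  · have h := master2 x (-x) (-1) 1 0 0 (fun _ => rfl) (fun _ => rfl)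
      (fun _ => 0) hasFiniteSupport_zero (fun σ p => by
        rw [hl σ p]
        linarith)
    rw [finsum_zero] at h
    linarith
  · have h := master2 x (-x) 1 (-1) 0 0 (fun _ => rfl) (fun _ => rfl)
      (fun _ => 0) hasFiniteSupport_zero (fun σ p => by
        rw [hl σ p]
        linarith)
    rw [finsum_zero] at h
    linarith

/-- the height of a fixed point of `GQ` is the plain sum of the local terms -/
theorem h1_of_fixed {x : Qb} (hx : ∀ σ : GQ, σ x = x) : h1 x = ∑ᶠ p, lp p x := by
  have h := oavg_congr (finite_orbit_Qb x) (Ψ := fun y => ∑ᶠ p, lp p y)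
    (Ψ' := fun _ => ∑ᶠ p, lp p x) fun σ => by
      show ∑ᶠ p, lp p (σ x) = ∑ᶠ p, lp p x
      rw [hx σ]
  unfold h1
  rw [h, oavg_const]

@[simp] theorem h1_zero : h1 0 = 0 := by
  rw [h1_of_fixed fun σ => map_zero σ]
  simp

@[simp] theorem h1_one : h1 1 = 0 := by
  rw [h1_of_fixed fun σ => map_one σ]
  simp


theorem h1_inv (x : Qb) : h1 x⁻¹ = h1 x := by
  rcases eq_or_ne x 0 with rfl | hx
  · simp
  apply le_antisymm
  · have h := master2 x x⁻¹ (-1) 1 1 0 (fun h => absurd h hx) (fun _ => rfl)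
      (fun _ => 0) hasFiniteSupport_zero (fun σ p => by
        rw [map_inv₀]
        have := lp_sub_lp_inv p ((map_ne_zero σ).mpr hx)
        linarith)
    rw [finsum_zero] at h
    linarith
  · have h := master2 x x⁻¹ 1 (-1) (-1) 0 (fun h => absurd h hx) (fun _ => rfl)
      (fun _ => 0) hasFiniteSupport_zero (fun σ p => by
        rw [map_inv₀]
        have := lp_sub_lp_inv p ((map_ne_zero σ).mpr hx)
        linarith)
    rw [finsum_zero] at h
    linarith

end Fermat.Agent.S17lib.HT
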