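/-
S17lib / HT / RootBound  (helper8) — Project G, block HT, part 9.

Root bounds for ONE absolute value `v` on a field `K`:
* `eval_le_of_coeff_le`, `nonarch_eval_le_of_coeff_le` : `|g(x)| ≤ ∑ |c_j|` resp. `≤ max |c_j|`
  for `|x| ≤ 1`;
* `root_le_of_coeff_le`, `nonarch_root_le_of_coeff_le` : Cauchy's bound for the roots of a monic
  polynomial;
* `biv_root_le`, `nonarch_biv_root_le` : if `G(x, y) = 0`, `G ∈ K[X][Y]` monic in `Y`, `|x| ≤ 1`
  and all coefficients of `G` have absolute value `≤ M` (`1 ≤ M`), then `|y| ≤ (archN G + 1) M`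
  resp. `|y| ≤ M`.
-/
import Mathlib
import Fermat.Agent.S17lib.HT.Local

set_option autoImplicit false

noncomputable section

namespace Fermat.Agent.S17lib.HT

open Polynomial

section RootBound

variable {K : Type*} [Field K] (v : AbsoluteValue K ℝ)

/-- `|g(x)| ≤ (deg g + 1) M` if `|x| ≤ 1` and all coefficients are `≤ M` -/
theorem eval_le_of_coeff_le (g : K[X]) {x : K} (hx : v x ≤ 1) {M : ℝ}
    (hc : ∀ j, v (g.coeff j) ≤ M) : v (g.eval x) ≤ (g.natDegree + 1 : ℕ) * M := by
  rw [eval_eq_sum_range]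
  refine (v.sum_le _ _).trans ?_
  have : ∀ j ∈ Finset.range (g.natDegree + 1), v (g.coeff j * x ^ j) ≤ M := by
    intro j _
    rw [map_mul, map_pow]
    have h1 : v x ^ j ≤ 1 := pow_le_one₀ (v.nonneg _) hx
    have h0 : 0 ≤ v (g.coeff j) := v.nonneg _
    calc v (g.coeff j) * v x ^ j ≤ v (g.coeff j) * 1 := by gcongr
      _ = v (g.coeff j) := mul_one _
      _ ≤ M := hc j
  calc ∑ j ∈ Finset.range (g.natDegree + 1), v (g.coeff j * x ^ j)
      ≤ ∑ _j ∈ Finset.range (g.natDegree + 1), M := Finset.sum_le_sum this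
    _ = (g.natDegree + 1 : ℕ) * M := by
      rw [Finset.sum_const, Finset.card_range, nsmul_eq_mul]

/-- ultrametric version: `|g(x)| ≤ M` -/
theorem nonarch_eval_le_of_coeff_le {v : AbsoluteValue K ℝ} (hv : IsNonarchimedean v) (g : K[X])
    {x : K} (hx : v x ≤ 1) {M : ℝ} (hM : 0 ≤ M) (hc : ∀ j, v (g.coeff j) ≤ M) :
    v (g.eval x) ≤ M := by
  rw [eval_eq_sum_range]
  refine nonarch_sum_le hv _ _ hM fun j _ => ?_
  rw [map_mul, map_pow]
  have h1 : v x ^ j ≤ 1 := pow_le_one₀ (v.nonneg _) hx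
  have h0 : 0 ≤ v (g.coeff j) := v.nonneg _
  calc v (g.coeff j) * v x ^ j ≤ v (g.coeff j) * 1 := by gcongr
    _ = v (g.coeff j) := mul_one _
    _ ≤ M := hc j

/-- Cauchy's root bound: a root of a monic polynomial of degree `n` whose lower coefficients
are bounded by `R` (`1 ≤ R`) has absolute value `≤ max 1 (n R)`. -/
theorem root_le_of_coeff_le (q : K[X]) (hq : q.Monic) {y : K} (hy : q.eval y = 0) {R : ℝ}
    (hR : 0 ≤ R) (hc : ∀ i < q.natDegree, v (q.coeff i) ≤ R) :
    v y ≤ max 1 (q.natDegree * R) := by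
  rcases le_or_gt (v y) 1 with h1 | h1
  · exact h1.trans (le_max_left _ _)
  refine le_trans ?_ (le_max_right _ _)
  set n := q.natDegree with hn
  have hpos : 0 < v y := lt_trans one_pos h1
  rw [eval_eq_sum_range, Finset.sum_range_succ, ← hn] at hy
  have hlead : q.coeff n = 1 := hq.coeff_natDegree
  rw [hlead, one_mul] at hy
  have hy' : y ^ n = -(∑ k ∈ Finset.range n, q.coeff k * y ^ k) := by
    linear_combination hy
  rcases Nat.eq_zero_or_pos n with h0 | hnpos
  · rw [h0] at hy'
    simp at hy'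
  have hR' : v (y ^ n) ≤ n * R * v y ^ (n - 1) := by
    rw [hy', map_neg_eq_map]
    refine (v.sum_le _ _).trans ?_
    have : ∀ k ∈ Finset.range n, v (q.coeff k * y ^ k) ≤ R * v y ^ (n - 1) := by
      intro k hk
      have hk' : k ≤ n - 1 := by
        have := Finset.mem_range.mp hk
        omega
      rw [map_mul, map_pow]
      have := hc k (Finset.mem_range.mp hk)
      have h2 : v y ^ k ≤ v y ^ (n - 1) := pow_le_pow_right₀ h1.le hk'
      have h3 : 0 ≤ v y ^ k := by positivity
      calc v (q.coeff k) * v y ^ k ≤ R * v y ^ k := by gcongr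
        _ ≤ R * v y ^ (n - 1) := by gcongr
    calc ∑ k ∈ Finset.range n, v (q.coeff k * y ^ k)
        ≤ ∑ _k ∈ Finset.range n, R * v y ^ (n - 1) := Finset.sum_le_sum this
      _ = n * R * v y ^ (n - 1) := by
        rw [Finset.sum_const, Finset.card_range, nsmul_eq_mul]; ring
  rw [map_pow] at hR'
  have hsplit : v y ^ n = v y * v y ^ (n - 1) := by
    rw [← pow_succ']
    congr 1
    omega
  rw [hsplit] at hR'
  have hpp : 0 < v y ^ (n - 1) := by positivity
  exact le_of_mul_le_mul_right hR' hpp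

/-- ultrametric root bound: `|y| ≤ R` (`1 ≤ R`) -/
theorem nonarch_root_le_of_coeff_le {v : AbsoluteValue K ℝ} (hv : IsNonarchimedean v) (q : K[X])
    (hq : q.Monic) {y : K} (hy : q.eval y = 0) {R : ℝ} (hR : 1 ≤ R)
    (hc : ∀ i < q.natDegree, v (q.coeff i) ≤ R) : v y ≤ R := by
  rcases le_or_gt (v y) 1 with h1 | h1
  · exact h1.trans hR
  set n := q.natDegree with hn
  have hpos : 0 < v y := lt_trans one_pos h1
  rw [eval_eq_sum_range, Finset.sum_range_succ, ← hn] at hy
  have hlead : q.coeff n = 1 := hq.coeff_natDegree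
  rw [hlead, one_mul] at hy
  have hy' : y ^ n = -(∑ k ∈ Finset.range n, q.coeff k * y ^ k) := by
    linear_combination hy
  rcases Nat.eq_zero_or_pos n with h0 | hnpos
  · rw [h0] at hy'
    simp at hy'
  have hR' : v (y ^ n) ≤ R * v y ^ (n - 1) := by
    rw [hy', map_neg_eq_map]
    refine nonarch_sum_le hv _ _ (by positivity) fun k hk => ?_
    have hk' : k ≤ n - 1 := by
      have := Finset.mem_range.mp hk
      omega
    rw [map_mul, map_pow]
    have := hc k (Finset.mem_range.mp hk)
    have h2 : v y ^ k ≤ v y ^ (n - 1) := pow_le_pow_right₀ h1.le hk'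
    have h3 : 0 ≤ v y ^ k := by positivity
    calc v (q.coeff k) * v y ^ k ≤ R * v y ^ k := by gcongr
      _ ≤ R * v y ^ (n - 1) := by gcongr
  rw [map_pow] at hR'
  have hsplit : v y ^ n = v y * v y ^ (n - 1) := by
    rw [← pow_succ']
    congr 1
    omega
  rw [hsplit] at hR'
  have hpp : 0 < v y ^ (n - 1) := by positivity
  exact le_of_mul_le_mul_right hR' hpp

/-- the archimedean constant of a bivariate polynomial: the number of coefficient slots below the
leading `Y`-coefficient -/
def archN (G : K[X][X]) : ℕ := ∑ i ∈ Finset.range G.natDegree, ((G.coeff i).natDegree + 1)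

/-- **bivariate root bound**, general absolute value -/
theorem biv_root_le (G : K[X][X]) (hG : G.Monic) {x y : K}
    (hxy : (G.map (evalRingHom x)).eval y = 0) (hx : v x ≤ 1) {M : ℝ} (hM : 1 ≤ M)
    (hc : ∀ i j, v ((G.coeff i).coeff j) ≤ M) : v y ≤ (archN G + 1 : ℕ) * M := by
  have hM0 : 0 ≤ M := zero_le_one.trans hM
  have hq : (G.map (evalRingHom x)).Monic := hG.map _
  have hdeg : (G.map (evalRingHom x)).natDegree = G.natDegree := hG.natDegree_map _
  -- bound the coefficients by the sum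
  set R : ℝ := (archN G : ℝ) * M with hRdef
  have hR0 : 0 ≤ R := by positivity
  have hci : ∀ i < (G.map (evalRingHom x)).natDegree,
      v ((G.map (evalRingHom x)).coeff i) ≤ ((G.coeff i).natDegree + 1 : ℕ) * M := by
    intro i _
    rw [coeff_map, coe_evalRingHom]
    exact eval_le_of_coeff_le v (G.coeff i) hx (hc i)
  -- we use the sharper sum form of Cauchy's bound
  rcases le_or_gt (v y) 1 with h1 | h1
  · have : (1 : ℝ) ≤ (archN G + 1 : ℕ) * M := by
      have : (1 : ℝ) ≤ (archN G + 1 : ℕ) := by exact_mod_cast Nat.le_add_left 1 _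
      calc (1 : ℝ) = 1 * 1 := (one_mul 1).symm
        _ ≤ (archN G + 1 : ℕ) * M := by gcongr
    exact h1.trans this
  set q := G.map (evalRingHom x) with hqdef
  set n := q.natDegree with hn
  have hpos : 0 < v y := lt_trans one_pos h1
  have hy := hxy
  rw [eval_eq_sum_range, Finset.sum_range_succ, ← hn] at hy
  have hlead : q.coeff n = 1 := hq.coeff_natDegree
  rw [hlead, one_mul] at hy
  have hy' : y ^ n = -(∑ k ∈ Finset.range n, q.coeff k * y ^ k) := by
    linear_combination hy
  rcases Nat.eq_zero_or_pos n with h0 | hnpos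
  · rw [h0] at hy'
    simp at hy'
  have hR' : v (y ^ n) ≤ R * v y ^ (n - 1) := by
    rw [hy', map_neg_eq_map]
    refine (v.sum_le _ _).trans ?_
    have : ∀ k ∈ Finset.range n, v (q.coeff k * y ^ k) ≤
        (((G.coeff k).natDegree + 1 : ℕ) * M) * v y ^ (n - 1) := by
      intro k hk
      have hk' : k ≤ n - 1 := by
        have := Finset.mem_range.mp hk
        omega
      rw [map_mul, map_pow]
      have := hci k (Finset.mem_range.mp hk)
      have h2 : v y ^ k ≤ v y ^ (n - 1) := pow_le_pow_right₀ h1.le hk'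
      have h3 : 0 ≤ v y ^ k := by positivity
      have h4 : (0 : ℝ) ≤ ((G.coeff k).natDegree + 1 : ℕ) * M := by positivity
      calc v (q.coeff k) * v y ^ k ≤ (((G.coeff k).natDegree + 1 : ℕ) * M) * v y ^ k := by gcongr
        _ ≤ (((G.coeff k).natDegree + 1 : ℕ) * M) * v y ^ (n - 1) := by gcongr
    calc ∑ k ∈ Finset.range n, v (q.coeff k * y ^ k)
        ≤ ∑ k ∈ Finset.range n, (((G.coeff k).natDegree + 1 : ℕ) * M) * v y ^ (n - 1) :=
          Finset.sum_le_sum this
      _ = R * v y ^ (n - 1) := by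
        rw [← Finset.sum_mul, ← Finset.sum_mul, hRdef, archN, ← hdeg]
        push_cast
        rfl
  rw [map_pow] at hR'
  have hsplit : v y ^ n = v y * v y ^ (n - 1) := by
    rw [← pow_succ']
    congr 1
    omega
  rw [hsplit] at hR'
  have hpp : 0 < v y ^ (n - 1) := by positivity
  have h5 : v y ≤ R := le_of_mul_le_mul_right hR' hpp
  refine h5.trans ?_
  rw [hRdef]
  push_cast
  nlinarith

/-- **bivariate root bound**, ultrametric absolute value -/
theorem nonarch_biv_root_le {v : AbsoluteValue K ℝ} (hv : IsNonarchimedean v) (G : K[X][X])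
    (hG : G.Monic) {x y : K} (hxy : (G.map (evalRingHom x)).eval y = 0) (hx : v x ≤ 1) {M : ℝ}
    (hM : 1 ≤ M) (hc : ∀ i j, v ((G.coeff i).coeff j) ≤ M) : v y ≤ M := by
  have hM0 : 0 ≤ M := zero_le_one.trans hM
  refine nonarch_root_le_of_coeff_le hv _ (hG.map _) hxy hM fun i _ => ?_
  rw [coeff_map, coe_evalRingHom]
  exact nonarch_eval_le_of_coeff_le hv (G.coeff i) hx hM0 (hc i)

end RootBound

end Fermat.Agent.S17lib.HT
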