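/-
S17lib / HT / ConjBound  (helper8) — Project G, block HT, part 10.

Uniform bounds for ALL conjugates of finitely many elements of `ℚ̄` at a place `p`:
* `cb p x`   : `∏_{y ∈ orbit x} max 1 |y|_p`;
* `cbP p g`  : the product of the `cb` of the coefficients of `g : ℚ̄[X]`;
* `cbG p G`  : the product of the `cbP` of the coefficients of `G : ℚ̄[X][Y]`.
Each is `≥ 1`, bounds `|σ c|_p` for every coefficient `c` and every `σ`, and equals `1` for almost
all `p`.
-/
import Mathlib
import Fermat.Agent.S17lib.HT.Orbit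
import Fermat.Agent.S17lib.HT.Support
import Fermat.Agent.S17lib.HT.RootBound

set_option autoImplicit false

noncomputable section

namespace Fermat.Agent.S17lib.HT

open MulAction Polynomial

/-- a factor of a product of real numbers `≥ 1` is at most the product -/
theorem le_prod_of_one_le {ι : Type*} (s : Finset ι) (f : ι → ℝ) (hf : ∀ i ∈ s, 1 ≤ f i) {a : ι}
    (ha : a ∈ s) : f a ≤ ∏ i ∈ s, f i := by
  classical
  rw [← Finset.mul_prod_erase s f ha]
  have h1 : 1 ≤ ∏ i ∈ s.erase a, f i :=
    Finset.one_le_prod fun i hi => hf i (Finset.mem_of_mem_erase hi)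
  have h0 : 0 ≤ f a := zero_le_one.trans (hf a ha)
  calc f a = f a * 1 := (mul_one _).symm
    _ ≤ f a * ∏ i ∈ s.erase a, f i := by gcongr

/-- `{p | ∏ f_i p ≠ 1}` is finite if each `{p | f_i p ≠ 1}` is -/
theorem finite_prod_ne_one {ι α : Type*} (s : Finset ι) (f : ι → α → ℝ)
    (hf : ∀ i ∈ s, {p | f i p ≠ 1}.Finite) : {p | ∏ i ∈ s, f i p ≠ 1}.Finite := by
  refine (Set.Finite.biUnion s.finite_toSet hf).subset ?_
  intro p hp
  rw [Set.mem_ofPred_eq] at hp
  by_contra hcon
  apply hp
  refine Finset.prod_eq_one fun i hi => ?_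
  by_contra h1
  apply hcon
  simp only [Set.mem_iUnion]
  exact ⟨i, hi, h1⟩

/-- the bound for all conjugates of `x` at `p` -/
def cb (p : Plc) (x : Qb) : ℝ := ∏ y ∈ (finite_orbit_Qb x).toFinset, max 1 (absv p y)

theorem one_le_cb (p : Plc) (x : Qb) : 1 ≤ cb p x :=
  Finset.one_le_prod fun _ _ => le_max_left _ _

theorem absv_conj_le_cb (p : Plc) (x : Qb) (σ : GQ) : absv p (σ x) ≤ cb p x := by
  have hmem : σ x ∈ (finite_orbit_Qb x).toFinset := by
    rw [Set.Finite.mem_toFinset]
    exact ⟨σ, rfl⟩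
  refine (le_max_right 1 _).trans ?_
  exact le_prod_of_one_le _ (fun y => max 1 (absv p y)) (fun _ _ => le_max_left _ _) hmem

theorem finite_cb_ne_one (x : Qb) : {p : Plc | cb p x ≠ 1}.Finite := by
  rcases eq_or_ne x 0 with rfl | hx
  · convert Set.finite_empty (α := Plc)
    ext p
    simp only [Set.mem_ofPred_eq, Set.mem_empty_iff_false, iff_false, not_not]
    refine Finset.prod_eq_one fun y hy => ?_
    rw [Set.Finite.mem_toFinset] at hy
    obtain ⟨σ, rfl⟩ := hy
    have : σ • (0 : Qb) = 0 := map_zero σ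
    show max 1 (absv p (σ • (0 : Qb))) = 1
    rw [this]
    simp
  · refine (finite_absv_conj_ne_one hx).subset ?_
    intro p hp
    rw [Set.mem_ofPred_eq] at hp ⊢
    by_contra hcon
    push Not at hcon
    apply hp
    refine Finset.prod_eq_one fun y hy => ?_
    rw [Set.Finite.mem_toFinset] at hy
    obtain ⟨σ, rfl⟩ := hy
    have : absv p (σ • x) = 1 := hcon σ
    rw [this, max_self]

/-- the bound for all conjugates of all coefficients of `g` -/
def cbP (p : Plc) (g : Qb[X]) : ℝ := ∏ j ∈ Finset.range (g.natDegree + 1), cb p (g.coeff j)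

theorem one_le_cbP (p : Plc) (g : Qb[X]) : 1 ≤ cbP p g :=
  Finset.one_le_prod fun _ _ => one_le_cb _ _

theorem absv_conj_coeff_le_cbP (p : Plc) (g : Qb[X]) (σ : GQ) (j : ℕ) :
    absv p (σ (g.coeff j)) ≤ cbP p g := by
  by_cases hj : j ∈ Finset.range (g.natDegree + 1)
  · refine (absv_conj_le_cb p _ σ).trans ?_
    exact le_prod_of_one_le _ (fun j => cb p (g.coeff j)) (fun _ _ => one_le_cb _ _) hj
  · rw [Finset.mem_range] at hj
    rw [coeff_eq_zero_of_natDegree_lt (by omega), map_zero, map_zero]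
    exact zero_le_one.trans (one_le_cbP p g)

theorem finite_cbP_ne_one (g : Qb[X]) : {p : Plc | cbP p g ≠ 1}.Finite :=
  finite_prod_ne_one _ (fun j p => cb p (g.coeff j)) fun _ _ => finite_cb_ne_one _

/-- the bound for all conjugates of all coefficients of the bivariate polynomial `G` -/
def cbG (p : Plc) (G : Qb[X][X]) : ℝ := ∏ i ∈ Finset.range (G.natDegree + 1), cbP p (G.coeff i)

theorem one_le_cbG (p : Plc) (G : Qb[X][X]) : 1 ≤ cbG p G :=
  Finset.one_le_prod fun _ _ => one_le_cbP _ _

theorem absv_conj_coeff_le_cbG (p : Plc) (G : Qb[X][X]) (σ : GQ) (i j : ℕ) :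
    absv p (σ ((G.coeff i).coeff j)) ≤ cbG p G := by
  by_cases hi : i ∈ Finset.range (G.natDegree + 1)
  · refine (absv_conj_coeff_le_cbP p _ σ j).trans ?_
    exact le_prod_of_one_le _ (fun i => cbP p (G.coeff i)) (fun _ _ => one_le_cbP _ _) hi
  · rw [Finset.mem_range] at hi
    have h0 : G.coeff i = 0 := coeff_eq_zero_of_natDegree_lt (by omega)
    rw [h0, coeff_zero, map_zero, map_zero]
    exact zero_le_one.trans (one_le_cbG p G)

theorem finite_cbG_ne_one (G : Qb[X][X]) : {p : Plc | cbG p G ≠ 1}.Finite :=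
  finite_prod_ne_one _ (fun i p => cbP p (G.coeff i)) fun _ _ => finite_cbP_ne_one _

/-- the absolute value `x ↦ |σ x|_p` -/
def absvConj (p : Plc) (σ : GQ) : AbsoluteValue Qb ℝ :=
  (absv p).comp (f := (σ : Qb →+* Qb)) σ.injective

@[simp] theorem absvConj_apply (p : Plc) (σ : GQ) (x : Qb) : absvConj p σ x = absv p (σ x) := rfl

theorem absvConj_isNonarchimedean (p : Nat.Primes) (σ : GQ) :
    IsNonarchimedean (absvConj (some p) σ) := by
  intro x y
  rw [absvConj_apply, absvConj_apply, absvConj_apply, map_add]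
  exact absv_some_isNonarchimedean p _ _

/-- the local constant attached to a bivariate polynomial: `cbG` times the archimedean factor -/
def bG (G : Qb[X][X]) : Plc → ℝ
  | none => (archN G + 1 : ℕ) * cbG none G
  | some p => cbG (some p) G

theorem one_le_bG (G : Qb[X][X]) (p : Plc) : 1 ≤ bG G p := by
  cases p with
  | none =>
    have h1 : (1 : ℝ) ≤ (archN G + 1 : ℕ) := by exact_mod_cast Nat.le_add_left 1 _
    have := one_le_cbG none G
    calc (1 : ℝ) = 1 * 1 := (one_mul 1).symm
      _ ≤ (archN G + 1 : ℕ) * cbG none G := by gcongr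
  | some p => exact one_le_cbG _ _

theorem finite_bG_ne_one (G : Qb[X][X]) : {p : Plc | bG G p ≠ 1}.Finite := by
  refine ((Set.finite_singleton (none : Plc)).union (finite_cbG_ne_one G)).subset ?_
  rintro (_ | p) hp
  · exact Or.inl rfl
  · exact Or.inr hp

/-- **the uniform bivariate root bound over `ℚ̄`**: if `G(x, y) = 0`, `G` monic in `Y`, then
`|σ y|_p ≤ bG G p` for every `σ` and every `p` with `|σ x|_p ≤ 1`. -/
theorem absv_conj_root_le_bG (G : Qb[X][X]) (hG : G.Monic) {x y : Qb}
    (hxy : (G.map (evalRingHom x)).eval y = 0) (σ : GQ) (p : Plc) (hx : absv p (σ x) ≤ 1) :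
    absv p (σ y) ≤ bG G p := by
  cases p with
  | none =>
    exact biv_root_le (absvConj none σ) G hG hxy hx (one_le_cbG none G)
      fun i j => absv_conj_coeff_le_cbG none G σ i j
  | some p =>
    exact nonarch_biv_root_le (absvConj_isNonarchimedean p σ) G hG hxy hx (one_le_cbG (some p) G)
      fun i j => absv_conj_coeff_le_cbG (some p) G σ i j

end Fermat.Agent.S17lib.HT
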