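/-
Project G (S17), height foundation: definition-independent bricks for the
bounded-degree Northcott property.

(A) `coeff_prod_X_sub_C_le`: for ONE absolute value `v` on a field, with
    `v (x + y) ≤ A * max (v x) (v y)` (`A = 1` in the nonarchimedean case,
    `A = 2` always), every coefficient of `∏ (X - β)` is bounded by
    `A ^ n * ∏ max 1 (v β)`; logarithmic form `posLog_coeff_prod_X_sub_C_le`.
(B) `finite_minpoly_coeff_le`: if `hQ : ℚ → ℝ` is Northcott, then in an algebraic
    extension of `ℚ` there are finitely many elements of degree `≤ d` all of whose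
    minimal-polynomial coefficients have `hQ ≤ B`.
(C) `conjFinset x`: the conjugates of `x` in a normal extension `L` of `ℚ`
    (`mem_conjFinset_iff_orbit`, `card_conjFinset`, `map_minpoly_eq_prod_conj`).
(D) `finite_bounded_degree_height`: bounded-degree Northcott for an abstract family of
    absolute values on `L` whose local sum is Northcott on `ℚ`.
(E) `northcott_rat_local_sum`: `q ↦ log⁺|q| + Σ_p log⁺|q|_p` is Northcott on `ℚ`
    (it dominates `log den` and `log |num|`).
(F) `finite_bounded_degree_height_std`: (D)+(E) for `absv : Option Nat.Primes → AbsoluteValue L ℝ`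
    extending the standard absolute values of `ℚ`.
Mathlib only.
-/
import Mathlib

set_option autoImplicit false

namespace Fermat.Agent.S17lib.HT.NorthcottDeg

open Polynomial

section CoeffBound

variable {K : Type*} [Field K]

theorem one_le_prod_max_one (v : AbsoluteValue K ℝ) (s : Multiset K) :
    1 ≤ (s.map (fun b => max 1 (v b))).prod := by
  induction s using Multiset.induction_on with
  | empty => simp
  | cons b s ih =>
    rw [Multiset.map_cons, Multiset.prod_cons]
    exact one_le_mul_of_one_le_of_one_le (le_max_left _ _) ih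

/-- (A) Coefficient bound for a product of monic linear factors, for one absolute value. -/
theorem coeff_prod_X_sub_C_le (v : AbsoluteValue K ℝ) {A : ℝ} (hA : 1 ≤ A)
    (hv : ∀ x y, v (x + y) ≤ A * max (v x) (v y)) (s : Multiset K) (k : ℕ) :
    v ((s.map (fun b => X - C b)).prod.coeff k) ≤
      A ^ Multiset.card s * (s.map (fun b => max 1 (v b))).prod := by
  induction s using Multiset.induction_on generalizing k with
  | empty =>
    simp only [Multiset.map_zero, Multiset.prod_zero, Multiset.card_zero, pow_zero, mul_one]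
    rw [coeff_one]
    split_ifs
    · simp
    · simp
  | cons b s ih =>
    have hA0 : 0 ≤ A := le_trans zero_le_one hA
    set M := (s.map (fun b => max 1 (v b))).prod with hM
    have hM1 : 1 ≤ M := one_le_prod_max_one v s
    have hM0 : 0 ≤ M := le_trans zero_le_one hM1
    set n := Multiset.card s with hn
    have hAn : 0 ≤ A ^ n := pow_nonneg hA0 n
    have hb1 : 1 ≤ max 1 (v b) := le_max_left _ _
    have hbv : v b ≤ max 1 (v b) := le_max_right _ _
    rw [Multiset.map_cons, Multiset.prod_cons, Multiset.map_cons, Multiset.prod_cons,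
      Multiset.card_cons, sub_mul]
    rw [coeff_sub, coeff_C_mul]
    cases k with
    | zero =>
      rw [coeff_X_mul_zero, zero_sub, AbsoluteValue.map_neg, AbsoluteValue.map_mul]
      calc v b * v ((s.map (fun b => X - C b)).prod.coeff 0)
          ≤ max 1 (v b) * (A ^ n * M) :=
            mul_le_mul hbv (ih 0) (AbsoluteValue.nonneg v _) (le_trans zero_le_one hb1)
        _ = 1 * (A ^ n * (max 1 (v b) * M)) := by ring
        _ ≤ A * (A ^ n * (max 1 (v b) * M)) :=
            mul_le_mul_of_nonneg_right hA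
              (mul_nonneg hAn (mul_nonneg (le_trans zero_le_one hb1) hM0))
        _ = A ^ (n + 1) * (max 1 (v b) * M) := by ring
    | succ k =>
      rw [coeff_X_mul, sub_eq_add_neg]
      have h1 := hv ((s.map (fun b => X - C b)).prod.coeff k)
        (-(b * (s.map (fun b => X - C b)).prod.coeff (k + 1)))
      rw [AbsoluteValue.map_neg, AbsoluteValue.map_mul] at h1
      have h2 : max (v ((s.map (fun b => X - C b)).prod.coeff k))
          (v b * v ((s.map (fun b => X - C b)).prod.coeff (k + 1))) ≤
          max 1 (v b) * (A ^ n * M) := by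
        refine max_le ?_ ?_
        · calc v ((s.map (fun b => X - C b)).prod.coeff k) ≤ A ^ n * M := ih k
            _ = 1 * (A ^ n * M) := (one_mul _).symm
            _ ≤ max 1 (v b) * (A ^ n * M) :=
              mul_le_mul_of_nonneg_right hb1 (mul_nonneg hAn hM0)
        · exact mul_le_mul hbv (ih (k + 1)) (AbsoluteValue.nonneg v _)
            (le_trans zero_le_one hb1)
      calc v ((s.map (fun b => X - C b)).prod.coeff k +
            -(b * (s.map (fun b => X - C b)).prod.coeff (k + 1)))
          ≤ A * max (v ((s.map (fun b => X - C b)).prod.coeff k))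
              (v b * v ((s.map (fun b => X - C b)).prod.coeff (k + 1))) := h1
        _ ≤ A * (max 1 (v b) * (A ^ n * M)) := mul_le_mul_of_nonneg_left h2 hA0
        _ = A ^ (n + 1) * (max 1 (v b) * M) := by ring

/-- The triangle inequality gives the constant `A = 2` for every absolute value. -/
theorem add_le_two_mul_max (v : AbsoluteValue K ℝ) (x y : K) :
    v (x + y) ≤ 2 * max (v x) (v y) := by
  have h := v.add_le x y
  have h1 := le_max_left (v x) (v y)
  have h2 := le_max_right (v x) (v y)
  linarith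

/-- A nonarchimedean absolute value has the constant `A = 1`. -/
theorem add_le_one_mul_max (v : AbsoluteValue K ℝ) (hv : IsNonarchimedean v) (x y : K) :
    v (x + y) ≤ 1 * max (v x) (v y) := by
  rw [one_mul]
  exact hv x y

/-- (A), logarithmic form: `log⁺ v(c_k) ≤ n · log A + Σ log⁺ v β`. -/
theorem posLog_coeff_prod_X_sub_C_le (v : AbsoluteValue K ℝ) {A : ℝ} (hA : 1 ≤ A)
    (hv : ∀ x y, v (x + y) ≤ A * max (v x) (v y)) (s : Multiset K) (k : ℕ) :
    Real.posLog (v ((s.map (fun b => X - C b)).prod.coeff k)) ≤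
      Multiset.card s * Real.log A + (s.map (fun b => Real.posLog (v b))).sum := by
  have hA0 : 0 < A := lt_of_lt_of_le zero_lt_one hA
  have hlogA : 0 ≤ Real.log A := Real.log_nonneg hA
  have hsum : Real.log ((s.map (fun b => max 1 (v b))).prod) =
      (s.map (fun b => Real.posLog (v b))).sum := by
    induction s using Multiset.induction_on with
    | empty => simp
    | cons b s ih =>
      have h1 : (0 : ℝ) < max 1 (v b) := lt_of_lt_of_le zero_lt_one (le_max_left _ _)
      have h2 : (0 : ℝ) < (s.map (fun b => max 1 (v b))).prod :=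
        lt_of_lt_of_le zero_lt_one (one_le_prod_max_one v s)
      rw [Multiset.map_cons, Multiset.prod_cons, Multiset.map_cons, Multiset.sum_cons,
        Real.log_mul h1.ne' h2.ne', ih, Real.posLog_eq_log_max_one (AbsoluteValue.nonneg v b)]
  have hM1 := one_le_prod_max_one v s
  have hM0 : (0 : ℝ) < (s.map (fun b => max 1 (v b))).prod := lt_of_lt_of_le zero_lt_one hM1
  have hpow : (0 : ℝ) < A ^ Multiset.card s := pow_pos hA0 _
  have hbound := coeff_prod_X_sub_C_le v hA hv s k
  have hApow1 : 1 ≤ A ^ Multiset.card s := one_le_pow₀ hA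
  have h1le : (1 : ℝ) ≤ A ^ Multiset.card s * (s.map (fun b => max 1 (v b))).prod :=
    one_le_mul_of_one_le_of_one_le hApow1 hM1
  rw [Real.posLog_eq_log_max_one (AbsoluteValue.nonneg v _)]
  have hmaxpos : (0 : ℝ) < max 1 (v ((s.map (fun b => X - C b)).prod.coeff k)) :=
    lt_of_lt_of_le zero_lt_one (le_max_left _ _)
  calc Real.log (max 1 (v ((s.map (fun b => X - C b)).prod.coeff k)))
      ≤ Real.log (A ^ Multiset.card s * (s.map (fun b => max 1 (v b))).prod) :=
        Real.log_le_log hmaxpos (max_le h1le hbound)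
    _ = Multiset.card s * Real.log A + (s.map (fun b => Real.posLog (v b))).sum := by
        rw [Real.log_mul hpow.ne' hM0.ne', Real.log_pow, hsum]

end CoeffBound

section Transfer

variable {L : Type*} [Field L] [Algebra ℚ L] [Algebra.IsAlgebraic ℚ L]

/-- Finitely many rational polynomials of degree `≤ d` with all coefficients in a finite set. -/
theorem finite_polys_of_finite_coeffs (S : Set ℚ) (hS : S.Finite) (d : ℕ) :
    {p : ℚ[X] | p.natDegree ≤ d ∧ ∀ k, p.coeff k ∈ S}.Finite := by
  have hpi : (Set.pi (Set.univ : Set (Fin (d + 1))) fun _ => S).Finite :=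
    Set.Finite.pi fun _ => hS
  refine Set.Finite.of_finite_image (f := fun p : ℚ[X] => fun i : Fin (d + 1) => p.coeff i)
    (hpi.subset ?_) ?_
  · rintro _ ⟨p, hp, rfl⟩
    exact fun i _ => hp.2 i
  · intro p hp q hq hpq
    ext k
    by_cases hk : k < d + 1
    · exact congrFun hpq ⟨k, hk⟩
    · rw [coeff_eq_zero_of_natDegree_lt (lt_of_le_of_lt hp.1 (by omega)),
        coeff_eq_zero_of_natDegree_lt (lt_of_le_of_lt hq.1 (by omega))]

/-- (B) Abstract Northcott transfer from `ℚ` to bounded degree over `ℚ`. -/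
theorem finite_minpoly_coeff_le (hQ : ℚ → ℝ) [Northcott hQ] (d : ℕ) (B : ℝ) :
    {x : L | (minpoly ℚ x).natDegree ≤ d ∧ ∀ k, hQ ((minpoly ℚ x).coeff k) ≤ B}.Finite := by
  have hS : {q : ℚ | hQ q ≤ B}.Finite := Northcott.finite_le B
  have hP := finite_polys_of_finite_coeffs {q : ℚ | hQ q ≤ B} hS d
  have hU : (⋃ p ∈ {p : ℚ[X] | p.natDegree ≤ d ∧ ∀ k, p.coeff k ∈ {q : ℚ | hQ q ≤ B}},
      p.rootSet L).Finite :=
    Set.Finite.biUnion hP fun p _ => Polynomial.rootSet_finite p L
  refine hU.subset ?_
  rintro x ⟨hx1, hx2⟩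
  refine Set.mem_biUnion (x := minpoly ℚ x) ⟨hx1, hx2⟩ ?_
  have hint : IsIntegral ℚ x := (Algebra.IsAlgebraic.isAlgebraic x).isIntegral
  rw [Polynomial.mem_rootSet]
  exact ⟨minpoly.ne_zero hint, minpoly.aeval ℚ x⟩

end Transfer

section Conj

variable {L : Type*} [Field L] [Algebra ℚ L] [Normal ℚ L]

theorem isIntegral_of_normal (x : L) : IsIntegral ℚ x := Normal.isIntegral ‹Normal ℚ L› x

open scoped Classical in
/-- The finite set of conjugates of `x` over `ℚ` inside the normal extension `L`. -/
noncomputable def conjFinset (x : L) : Finset L := ((minpoly ℚ x).aroots L).toFinset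

theorem mem_conjFinset_iff_orbit {x β : L} :
    β ∈ conjFinset x ↔ β ∈ MulAction.orbit (L ≃ₐ[ℚ] L) x := by
  classical
  rw [conjFinset, Multiset.mem_toFinset, ← isConjRoot_iff_mem_minpoly_aroots (isIntegral_of_normal x),
    isConjRoot_iff_exists_algEquiv]
  constructor
  · rintro ⟨σ, h⟩
    refine ⟨σ⁻¹, ?_⟩
    rw [← h]
    exact σ.symm_apply_apply β
  · rintro ⟨σ, h⟩
    refine ⟨σ⁻¹, ?_⟩
    rw [← h]
    exact σ.symm_apply_apply x

theorem self_mem_conjFinset (x : L) : x ∈ conjFinset x :=
  mem_conjFinset_iff_orbit.mpr (MulAction.mem_orbit_self x)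

theorem nodup_aroots_minpoly (x : L) : ((minpoly ℚ x).aroots L).Nodup :=
  Polynomial.nodup_roots ((minpoly.irreducible (isIntegral_of_normal x)).separable.map)

theorem conjFinset_val (x : L) : (conjFinset x).val = (minpoly ℚ x).aroots L := by
  classical
  rw [conjFinset, Multiset.toFinset_val, Multiset.dedup_eq_self.mpr (nodup_aroots_minpoly x)]

theorem card_conjFinset (x : L) : (conjFinset x).card = (minpoly ℚ x).natDegree := by
  have hs : ((minpoly ℚ x).map (algebraMap ℚ L)).Splits := Normal.splits ‹Normal ℚ L› x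
  rw [Finset.card_def, conjFinset_val, Polynomial.aroots_def, ← hs.natDegree_eq_card_roots,
    Polynomial.natDegree_map]

/-- The minimal polynomial over `ℚ`, mapped to `L`, is the product over the conjugates. -/
theorem map_minpoly_eq_prod_conj (x : L) :
    (minpoly ℚ x).map (algebraMap ℚ L) = ((conjFinset x).val.map (fun b => X - C b)).prod := by
  have hs : ((minpoly ℚ x).map (algebraMap ℚ L)).Splits := Normal.splits ‹Normal ℚ L› x
  have hm : ((minpoly ℚ x).map (algebraMap ℚ L)).Monic :=
    (minpoly.monic (isIntegral_of_normal x)).map _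
  rw [conjFinset_val, Polynomial.aroots_def]
  exact hs.eq_prod_roots_of_monic hm

end Conj

section Main

variable {L : Type*} [Field L] [Algebra ℚ L] [Normal ℚ L]
variable {ι : Type*} (absv : ι → AbsoluteValue L ℝ)

/-- The local-to-global coefficient inequality: for every coefficient `c` of the minimal
polynomial of `x`, `Σ_v log⁺|c|_v ≤ n · Σ_v log A_v + Σ_{β conj. of x} Σ_v log⁺|β|_v`. -/
theorem finsum_posLog_coeff_minpoly_le (A : ι → ℝ) (hA : ∀ i, 1 ≤ A i)
    (hAfin : Function.HasFiniteSupport fun i => Real.log (A i))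
    (hv : ∀ i x y, absv i (x + y) ≤ A i * max (absv i x) (absv i y))
    (hsupp : ∀ y : L, Function.HasFiniteSupport fun i => Real.posLog (absv i y))
    (x : L) (k : ℕ) :
    ∑ᶠ i, Real.posLog (absv i (algebraMap ℚ L ((minpoly ℚ x).coeff k))) ≤
      (minpoly ℚ x).natDegree * (∑ᶠ i, Real.log (A i)) +
        ∑ β ∈ conjFinset x, ∑ᶠ i, Real.posLog (absv i β) := by
  classical
  set c : L := algebraMap ℚ L ((minpoly ℚ x).coeff k) with hc
  -- a common finite support
  have hfinT : (Function.support (fun i => Real.log (A i)) ∪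
      Function.support (fun i => Real.posLog (absv i c)) ∪
      ⋃ β ∈ conjFinset x, Function.support (fun i => Real.posLog (absv i β))).Finite :=
    (Set.Finite.union hAfin (hsupp c)).union
      (Set.Finite.biUnion (conjFinset x).finite_toSet fun β _ => hsupp β)
  set T : Finset ι := hfinT.toFinset with hT
  have hTA : Function.support (fun i => Real.log (A i)) ⊆ ↑T := by
    intro i hi
    rw [hT, Set.Finite.coe_toFinset]
    exact Or.inl (Or.inl hi)
  have hTc : Function.support (fun i => Real.posLog (absv i c)) ⊆ ↑T := by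
    intro i hi
    rw [hT, Set.Finite.coe_toFinset]
    exact Or.inl (Or.inr hi)
  have hTβ : ∀ β ∈ conjFinset x,
      Function.support (fun i => Real.posLog (absv i β)) ⊆ ↑T := by
    intro β hβ i hi
    rw [hT, Set.Finite.coe_toFinset]
    exact Or.inr (Set.mem_biUnion hβ hi)
  rw [finsum_eq_sum_of_support_subset _ hTA, finsum_eq_sum_of_support_subset _ hTc,
    Finset.sum_congr rfl fun β hβ => finsum_eq_sum_of_support_subset _ (hTβ β hβ)]
  -- the pointwise inequality
  have hpt : ∀ i, Real.posLog (absv i c) ≤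
      (minpoly ℚ x).natDegree * Real.log (A i) +
        ∑ β ∈ conjFinset x, Real.posLog (absv i β) := by
    intro i
    have h := posLog_coeff_prod_X_sub_C_le (absv i) (hA i) (hv i) (conjFinset x).val k
    rw [← map_minpoly_eq_prod_conj x, Polynomial.coeff_map, ← hc, Finset.card_val,
      card_conjFinset] at h
    exact h
  calc ∑ i ∈ T, Real.posLog (absv i c)
      ≤ ∑ i ∈ T, ((minpoly ℚ x).natDegree * Real.log (A i) +
          ∑ β ∈ conjFinset x, Real.posLog (absv i β)) := Finset.sum_le_sum fun i _ => hpt i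
    _ = (minpoly ℚ x).natDegree * ∑ i ∈ T, Real.log (A i) +
          ∑ β ∈ conjFinset x, ∑ i ∈ T, Real.posLog (absv i β) := by
        rw [Finset.sum_add_distrib, ← Finset.mul_sum, Finset.sum_comm]

/-- (D) **Bounded-degree Northcott**, generic form.  `absv` is a family of absolute values on a
normal algebraic extension `L` of `ℚ` (one fixed extension of every place of `ℚ`), such that the
local sum `q ↦ Σ_v log⁺|q|_v` is Northcott on `ℚ`.  Then there are finitely many `x : L` of
degree `≤ d` whose conjugate-sum of local sums is `≤ deg x · B` (i.e. of absolute height `≤ B`). -/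
theorem finite_bounded_degree_height (A : ι → ℝ) (hA : ∀ i, 1 ≤ A i)
    (hAfin : Function.HasFiniteSupport fun i => Real.log (A i))
    (hv : ∀ i x y, absv i (x + y) ≤ A i * max (absv i x) (absv i y))
    (hsupp : ∀ y : L, Function.HasFiniteSupport fun i => Real.posLog (absv i y))
    [Northcott fun q : ℚ => ∑ᶠ i, Real.posLog (absv i (algebraMap ℚ L q))]
    (d : ℕ) (B : ℝ) :
    {x : L | (minpoly ℚ x).natDegree ≤ d ∧
      ∑ β ∈ conjFinset x, ∑ᶠ i, Real.posLog (absv i β) ≤ (minpoly ℚ x).natDegree * B}.Finite := by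
  set cA : ℝ := ∑ᶠ i, Real.log (A i) with hcA
  refine (finite_minpoly_coeff_le (L := L)
    (fun q : ℚ => ∑ᶠ i, Real.posLog (absv i (algebraMap ℚ L q))) d
    (d * max (cA + B) 0)).subset ?_
  rintro x ⟨hx1, hx2⟩
  refine ⟨hx1, fun k => ?_⟩
  have h := finsum_posLog_coeff_minpoly_le absv A hA hAfin hv hsupp x k
  have hn : ((minpoly ℚ x).natDegree : ℝ) ≤ d := by exact_mod_cast hx1
  have hn0 : (0 : ℝ) ≤ (minpoly ℚ x).natDegree := Nat.cast_nonneg _
  calc ∑ᶠ i, Real.posLog (absv i (algebraMap ℚ L ((minpoly ℚ x).coeff k)))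
      ≤ (minpoly ℚ x).natDegree * cA + (minpoly ℚ x).natDegree * B := by
        linarith
    _ = (minpoly ℚ x).natDegree * (cA + B) := by ring
    _ ≤ (minpoly ℚ x).natDegree * max (cA + B) 0 :=
        mul_le_mul_of_nonneg_left (le_max_left _ _) hn0
    _ ≤ d * max (cA + B) 0 := mul_le_mul_of_nonneg_right hn (le_max_right _ _)

end Main

section RatNorthcott

theorem log_le_posLog (x : ℝ) : Real.log x ≤ Real.posLog x := le_max_right _ _

/-- For `p ∣ q.den`, `|q|_p = p ^ v_p(q.den)`. -/
theorem padicNorm_of_dvd_den (q : ℚ) {p : ℕ} (hp : p.Prime) (hpd : p ∣ q.den) :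
    (padicNorm p q : ℝ) = (p : ℝ) ^ (padicValNat p q.den) := by
  have hq : q ≠ 0 := by
    rintro rfl
    rw [Rat.den_zero] at hpd
    exact hp.one_lt.ne' (Nat.dvd_one.mp hpd)
  have hnum : ¬ (p : ℤ) ∣ q.num := by
    intro h
    have h1 : p ∣ q.num.natAbs := Int.natCast_dvd.mp h
    have hcop : Nat.Coprime q.num.natAbs q.den := q.reduced
    exact hp.one_lt.ne' (Nat.dvd_one.mp (hcop ▸ Nat.dvd_gcd h1 hpd))
  rw [padicNorm.eq_zpow_of_nonzero hq, padicValRat_def, padicValInt.eq_zero_of_not_dvd hnum,
    Nat.cast_zero, zero_sub, neg_neg, zpow_natCast]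
  push_cast
  rfl

/-- `Σ_{p ∣ den} log |q|_p = log den`. -/
theorem sum_log_padicNorm_primeFactors_den (q : ℚ) :
    ∑ p ∈ q.den.primeFactors, Real.log (padicNorm p q : ℝ) = Real.log q.den := by
  rw [Real.log_nat_eq_sum_factorization, Finsupp.sum, Nat.support_factorization]
  refine Finset.sum_congr rfl fun p hp => ?_
  have hpp : p.Prime := Nat.prime_of_mem_primeFactors hp
  have hpd : p ∣ q.den := Nat.dvd_of_mem_primeFactors hp
  rw [padicNorm_of_dvd_den q hpp hpd, Real.log_pow, Nat.factorization_def _ hpp]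

variable (absQ : Option Nat.Primes → ℚ → ℝ)

/-- The finite set of places where `q` can have absolute value `> 1`. -/
noncomputable def badPlaces (q : ℚ) : Finset (Option Nat.Primes) :=
  insert none (q.den.primeFactors.attach.map
    ⟨fun p => some (⟨p.1, Nat.prime_of_mem_primeFactors p.2⟩ : Nat.Primes), fun a b h => by
      have h1 := Option.some_injective _ h
      have h2 : (a : ℕ) = (b : ℕ) := congrArg (fun x : Nat.Primes => (x : ℕ)) h1
      exact Subtype.ext h2⟩)

theorem support_posLog_subset (_hinf : ∀ q, absQ none q = |(q : ℝ)|)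
    (hp : ∀ (p : Nat.Primes) q, absQ (some p) q = (padicNorm p q : ℝ)) (q : ℚ) :
    Function.support (fun o => Real.posLog (absQ o q)) ⊆ ↑(badPlaces q) := by
  intro o ho
  rw [Function.mem_support] at ho
  rw [badPlaces, Finset.mem_coe, Finset.mem_insert]
  cases o with
  | none => exact Or.inl rfl
  | some p =>
    right
    rw [Finset.mem_map]
    by_contra hnot
    apply ho
    rw [hp]
    apply Real.posLog_eq_zero_iff _ |>.mpr
    have hpp : (p : ℕ).Prime := p.2
    have : Fact (p : ℕ).Prime := ⟨hpp⟩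
    have hnd : ¬ (p : ℕ) ∣ q.den := by
      intro hd
      apply hnot
      exact ⟨⟨p.1, Nat.mem_primeFactors.mpr ⟨hpp, hd, q.den_nz⟩⟩, Finset.mem_attach _ _, rfl⟩
    -- `|q|_p = |num|_p / |den|_p ≤ 1`
    have hden : padicNorm p (q.den : ℚ) = 1 := (padicNorm.nat_eq_one_iff _).mpr hnd
    have hnum : padicNorm p (q.num : ℚ) ≤ 1 := padicNorm.of_int _
    have hq : padicNorm p q = padicNorm p (q.num : ℚ) := by
      conv_lhs => rw [← Rat.num_div_den q]
      rw [padicNorm.div, hden, div_one]
    rw [abs_of_nonneg (by exact_mod_cast padicNorm.nonneg q), hq]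
    exact_mod_cast hnum

theorem hasFiniteSupport_posLog (hinf : ∀ q, absQ none q = |(q : ℝ)|)
    (hp : ∀ (p : Nat.Primes) q, absQ (some p) q = (padicNorm p q : ℝ)) (q : ℚ) :
    Function.HasFiniteSupport fun o => Real.posLog (absQ o q) :=
  (badPlaces q).finite_toSet.subset (support_posLog_subset absQ hinf hp q)

theorem finsum_posLog_eq (hinf : ∀ q, absQ none q = |(q : ℝ)|)
    (hp : ∀ (p : Nat.Primes) q, absQ (some p) q = (padicNorm p q : ℝ)) (q : ℚ) :
    ∑ᶠ o, Real.posLog (absQ o q) =
      Real.posLog |(q : ℝ)| + ∑ p ∈ q.den.primeFactors, Real.posLog (padicNorm p q : ℝ) := by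
  rw [finsum_eq_sum_of_support_subset _ (support_posLog_subset absQ hinf hp q), badPlaces,
    Finset.sum_insert (by simp), hinf, Finset.sum_map]
  congr 1
  simp only [Function.Embedding.coeFn_mk, hp]
  exact Finset.sum_attach _ fun p : ℕ => Real.posLog (padicNorm p q : ℝ)

/-- The local sum dominates `log den` and `log |num|`. -/
theorem log_den_le_finsum_posLog (hinf : ∀ q, absQ none q = |(q : ℝ)|)
    (hp : ∀ (p : Nat.Primes) q, absQ (some p) q = (padicNorm p q : ℝ)) (q : ℚ) :
    Real.log q.den ≤ ∑ᶠ o, Real.posLog (absQ o q) := by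
  rw [finsum_posLog_eq absQ hinf hp, ← sum_log_padicNorm_primeFactors_den]
  have h1 : 0 ≤ Real.posLog |(q : ℝ)| := Real.posLog_nonneg
  have h2 : ∑ p ∈ q.den.primeFactors, Real.log (padicNorm p q : ℝ) ≤
      ∑ p ∈ q.den.primeFactors, Real.posLog (padicNorm p q : ℝ) :=
    Finset.sum_le_sum fun p _ => log_le_posLog _
  linarith

theorem log_num_le_finsum_posLog (hinf : ∀ q, absQ none q = |(q : ℝ)|)
    (hp : ∀ (p : Nat.Primes) q, absQ (some p) q = (padicNorm p q : ℝ)) (q : ℚ) :
    Real.log |(q.num : ℝ)| ≤ ∑ᶠ o, Real.posLog (absQ o q) := by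
  by_cases hq : q = 0
  · subst hq
    simp only [Rat.num_zero, Int.cast_zero, abs_zero, Real.log_zero]
    exact finsum_nonneg fun _ => Real.posLog_nonneg
  rw [finsum_posLog_eq absQ hinf hp]
  have h2 : ∑ p ∈ q.den.primeFactors, Real.log (padicNorm p q : ℝ) ≤
      ∑ p ∈ q.den.primeFactors, Real.posLog (padicNorm p q : ℝ) :=
    Finset.sum_le_sum fun p _ => log_le_posLog _
  rw [sum_log_padicNorm_primeFactors_den] at h2
  have h1 : Real.log |(q : ℝ)| ≤ Real.posLog |(q : ℝ)| := log_le_posLog _
  have hden : (0 : ℝ) < q.den := by exact_mod_cast q.den_pos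
  have hnum : (q.num : ℝ) ≠ 0 := by exact_mod_cast Rat.num_ne_zero.mpr hq
  have hqe : (q : ℝ) = (q.num : ℝ) / (q.den : ℝ) := by
    conv_lhs => rw [← Rat.num_div_den q]
    push_cast
    rfl
  have h3 : Real.log |(q : ℝ)| = Real.log |(q.num : ℝ)| - Real.log q.den := by
    rw [hqe, abs_div, abs_of_pos hden, Real.log_div (abs_ne_zero.mpr hnum) hden.ne']
  linarith

/-- (E) **Northcott over `ℚ`** for the local sum `q ↦ Σ_v log⁺ |q|_v` over the places
`Option Nat.Primes` of `ℚ` (`none` = the real place). -/
theorem northcott_rat_local_sum (hinf : ∀ q, absQ none q = |(q : ℝ)|)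
    (hp : ∀ (p : Nat.Primes) q, absQ (some p) q = (padicNorm p q : ℝ)) :
    Northcott fun q : ℚ => ∑ᶠ o, Real.posLog (absQ o q) := by
  refine ⟨fun B => ?_⟩
  -- numerators and denominators are bounded by `M = ⌈exp B⌉`
  set M : ℕ := ⌈Real.exp B⌉₊ with hM
  have hfin : ((fun ab : ℤ × ℕ => (ab.1 : ℚ) / (ab.2 : ℚ)) ''
      (↑(Finset.Icc (-(M : ℤ)) (M : ℤ) ×ˢ Finset.Icc 0 M) : Set (ℤ × ℕ))).Finite :=
    (Finset.finite_toSet _).image _
  refine hfin.subset ?_
  intro q hq
  rw [Set.mem_ofPred_eq] at hq
  refine ⟨(q.num, q.den), ?_, Rat.num_div_den q⟩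
  have hden := le_trans (log_den_le_finsum_posLog absQ hinf hp q) hq
  have hnum := le_trans (log_num_le_finsum_posLog absQ hinf hp q) hq
  have hdenpos : (0 : ℝ) < q.den := by exact_mod_cast q.den_pos
  have hd : (q.den : ℝ) ≤ Real.exp B := (Real.log_le_iff_le_exp hdenpos).mp hden
  have hn : |(q.num : ℝ)| ≤ Real.exp B := by
    by_cases h0 : (q.num : ℝ) = 0
    · rw [h0, abs_zero]; exact (Real.exp_pos B).le
    · exact (Real.log_le_iff_le_exp (abs_pos.mpr h0)).mp hnum
  have hMle : Real.exp B ≤ (M : ℝ) := Nat.le_ceil _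
  rw [Finset.coe_product, Set.mem_prod, Finset.mem_coe, Finset.mem_coe, Finset.mem_Icc,
    Finset.mem_Icc]
  have hn' : |(q.num : ℝ)| ≤ (M : ℝ) := hn.trans hMle
  have hd' : (q.den : ℝ) ≤ (M : ℝ) := hd.trans hMle
  rw [abs_le] at hn'
  refine ⟨⟨?_, ?_⟩, Nat.zero_le _, ?_⟩
  · have : ((-(M : ℤ) : ℤ) : ℝ) ≤ (q.num : ℝ) := by push_cast; exact hn'.1
    exact_mod_cast this
  · have : (q.num : ℝ) ≤ ((M : ℤ) : ℝ) := by push_cast; exact hn'.2
    exact_mod_cast this
  · exact_mod_cast hd'

end RatNorthcott

section Std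

variable {L : Type*} [Field L] [Algebra ℚ L] [Normal ℚ L]

/-- (F) **Bounded-degree Northcott** for a family `absv : Option Nat.Primes → AbsoluteValue L ℝ`
extending the standard absolute values of `ℚ` (`none` = the real place, `some p` = the `p`-adic
one, nonarchimedean), with finitely many places `> 1` at every element. -/
theorem finite_bounded_degree_height_std (absv : Option Nat.Primes → AbsoluteValue L ℝ)
    (hinf : ∀ q : ℚ, absv none (algebraMap ℚ L q) = |(q : ℝ)|)
    (hp : ∀ (p : Nat.Primes) (q : ℚ), absv (some p) (algebraMap ℚ L q) = (padicNorm p q : ℝ))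
    (hna : ∀ p : Nat.Primes, IsNonarchimedean (absv (some p)))
    (hsupp : ∀ y : L, Function.HasFiniteSupport fun o => Real.posLog (absv o y))
    (d : ℕ) (B : ℝ) :
    {x : L | (minpoly ℚ x).natDegree ≤ d ∧
      ∑ β ∈ conjFinset x, ∑ᶠ o, Real.posLog (absv o β) ≤ (minpoly ℚ x).natDegree * B}.Finite := by
  have hN : Northcott fun q : ℚ => ∑ᶠ o, Real.posLog (absv o (algebraMap ℚ L q)) :=
    northcott_rat_local_sum (fun o q => absv o (algebraMap ℚ L q)) hinf hp
  refine finite_bounded_degree_height absv (fun o => Option.elim o 2 fun _ => 1) ?_ ?_ ?_ hsupp d B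
  · intro o
    cases o with
    | none => exact one_le_two
    | some p => exact le_refl _
  · refine (Set.finite_singleton (none : Option Nat.Primes)).subset ?_
    intro o ho
    cases o with
    | none => rfl
    | some p => exact absurd (by simp) ho
  · intro o x y
    cases o with
    | none => exact add_le_two_mul_max _ x y
    | some p => exact add_le_one_mul_max _ (hna p) x y

/-- `ℚ̄ / ℚ` is normal, for the default (`DivisionRing.toRatAlgebra`) algebra structure. -/
theorem normal_rat_algebraicClosure : Normal ℚ (AlgebraicClosure ℚ) := by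
  have h : (AlgebraicClosure.instAlgebra ℚ : Algebra ℚ (AlgebraicClosure ℚ)) =
      DivisionRing.toRatAlgebra := Subsingleton.elim _ _
  rw [← h]
  exact IsAlgClosure.normal ℚ _

end Std

end Fermat.Agent.S17lib.HT.NorthcottDeg
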