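/-
S17lib / HT / NorthcottQb  (helper9) — Project G, block HT.

**Bounded-degree Northcott for helper8's absolute height `h1 : Qb → ℝ`:**
`{x : Qb | (minpoly ℚ x).natDegree ≤ d ∧ h1 x ≤ B}.Finite`.
Glue between `HT/Height.lean` (helper8) and the generic `HT/NorthcottDeg.lean` (helper9).
-/
import Mathlib
import Fermat.Agent.S17lib.HT.Height
import Fermat.Agent.S17lib.HT.NorthcottDeg

set_option autoImplicit false

noncomputable section

namespace Fermat.Agent.S17lib.HT

open Function MulAction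

theorem lp_eq_posLog (p : Plc) (x : Qb) : lp p x = Real.posLog (absv p x) := by
  rw [lp, Real.posLog_eq_log_max_one (AbsoluteValue.nonneg _ _)]

theorem orbit_toFinset_eq_conjFinset (x : Qb) :
    (finite_orbit_Qb x).toFinset = NorthcottDeg.conjFinset x := by
  ext β
  rw [Set.Finite.mem_toFinset, NorthcottDeg.mem_conjFinset_iff_orbit]

/-- the orbit of `x` under `GQ` has `deg x` elements -/
theorem card_orbit_toFinset_eq_natDegree (x : Qb) :
    (finite_orbit_Qb x).toFinset.card = (minpoly ℚ x).natDegree := by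
  rw [orbit_toFinset_eq_conjFinset, NorthcottDeg.card_conjFinset]

theorem natDegree_minpoly_pos (x : Qb) : 0 < (minpoly ℚ x).natDegree :=
  minpoly.natDegree_pos (Algebra.IsIntegral.isIntegral x)

/-- `h1` as the conjugate average of the local sums `Σ_p log⁺ |β|_p` -/
theorem h1_eq_conj_sum (x : Qb) :
    h1 x = (∑ β ∈ NorthcottDeg.conjFinset x, ∑ᶠ p, Real.posLog (absv p β)) /
      (minpoly ℚ x).natDegree := by
  unfold h1 oavg
  rw [card_orbit_toFinset_eq_natDegree, orbit_toFinset_eq_conjFinset]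
  simp only [lp_eq_posLog]

theorem fs_posLog (y : Qb) : (fun p => Real.posLog (absv p y)).HasFiniteSupport := by
  have h := fs_lp y
  simpa only [lp_eq_posLog] using h

/-- **Northcott in bounded degree**: finitely many algebraic numbers of degree `≤ d` and
absolute logarithmic height `≤ B`. -/
theorem finite_natDegree_le_h1_le (d : ℕ) (B : ℝ) :
    {x : Qb | (minpoly ℚ x).natDegree ≤ d ∧ h1 x ≤ B}.Finite := by
  refine (NorthcottDeg.finite_bounded_degree_height_std (L := Qb) absv absv_none_rat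
    absv_some_rat absv_some_isNonarchimedean fs_posLog d B).subset ?_
  rintro x ⟨hx1, hx2⟩
  refine ⟨hx1, ?_⟩
  have hpos : (0 : ℝ) < (minpoly ℚ x).natDegree := by exact_mod_cast natDegree_minpoly_pos x
  rw [h1_eq_conj_sum, div_le_iff₀ hpos] at hx2
  linarith

/-- the same for a set of algebraic numbers all of degree `≤ d` -/
theorem finite_h1_le_of_natDegree_le {S : Set Qb} {d : ℕ}
    (hS : ∀ x ∈ S, (minpoly ℚ x).natDegree ≤ d) (B : ℝ) : {x ∈ S | h1 x ≤ B}.Finite :=
  (finite_natDegree_le_h1_le d B).subset fun x hx => ⟨hS x hx.1, hx.2⟩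

/-- a `GQ`-stable finite set of at most `d` algebraic numbers consists of numbers of
degree `≤ d` -/
theorem natDegree_minpoly_le_of_stable {S : Finset Qb} (hS : ∀ σ : GQ, ∀ c ∈ S, σ c ∈ S)
    {c : Qb} (hc : c ∈ S) : (minpoly ℚ c).natDegree ≤ S.card := by
  rw [← card_orbit_toFinset_eq_natDegree]
  refine Finset.card_le_card fun y hy => ?_
  rw [Set.Finite.mem_toFinset] at hy
  obtain ⟨σ, rfl⟩ := hy
  exact hS σ c hc

/-- **the Northcott input `hN` of helper2's `NC.finite_fixed_classes`** for `K = Qb`, `Γ = GQ`,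
`hv = h1`: all `GQ`-stable finsets of card `≤ d` and height `≤ B` live in ONE finite set. -/
theorem hN_Qb (d : ℕ) (B : ℝ) : ∃ T : Set Qb, T.Finite ∧ ∀ S : Finset Qb, S.card ≤ d →
    (∀ σ : GQ, ∀ c ∈ S, σ c ∈ S) → (∀ c ∈ S, h1 c ≤ B) → (↑S : Set Qb) ⊆ T := by
  refine ⟨_, finite_natDegree_le_h1_le d B, fun S hcard hst hht c hc => ?_⟩
  exact ⟨(natDegree_minpoly_le_of_stable hst hc).trans hcard, hht c hc⟩

end Fermat.Agent.S17lib.HT
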